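/-
S16 lower bound, theta route: the two INTERFACES of the theta brick.

* `QuatData p`   : what the ARITHMETIC side supplies (an even integral quaternary
                   form of level `p` and discriminant `p^2`, with an explicit
                   triangular certificate of positive definiteness).
* `ThetaSys p G` : what the ANALYTIC side proves from a `QuatData p` and what the
                   FINITE side (Gauss sums + induction on words in `S`, `T`)
                   consumes: a family of functions on the upper half plane indexed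
                   by a finite abelian group `G` with Weil-type `S`/`T` laws.
-/
import Mathlib

set_option autoImplicit false

namespace Fermat.Agent.S16.Theta

open UpperHalfPlane
open scoped Manifold

/-- Arithmetic input: an even symmetric integral `4 × 4` matrix `A` with an even symmetric
integral "adjoint" `B`, `A * B = p`, together with a triangular decomposition
`xᵀ A x = ∑ dᵢ (xᵢ + ∑_{j>i} cᵢⱼ xⱼ)²` with `dᵢ > 0` and `d₀ d₁ d₂ d₃ = p²`
(so `A` is positive definite of determinant `p²`). -/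
structure QuatData (p : ℕ) where
  A : Matrix (Fin 4) (Fin 4) ℤ
  B : Matrix (Fin 4) (Fin 4) ℤ
  A_symm : ∀ i j, A i j = A j i
  B_symm : ∀ i j, B i j = B j i
  A_even : ∀ i, Even (A i i)
  B_even : ∀ i, Even (B i i)
  A_mul_B : A * B = (p : ℤ) • (1 : Matrix (Fin 4) (Fin 4) ℤ)
  d0 : ℝ
  d1 : ℝ
  d2 : ℝ
  d3 : ℝ
  c01 : ℝ
  c02 : ℝ
  c03 : ℝ
  c12 : ℝ
  c13 : ℝ
  c23 : ℝ
  d0_pos : 0 < d0
  d1_pos : 0 < d1
  d2_pos : 0 < d2
  d3_pos : 0 < d3
  d_prod : d0 * d1 * d2 * d3 = (p : ℝ) ^ 2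
  quad_eq : ∀ x : Fin 4 → ℝ,
    ∑ i, ∑ j, (A i j : ℝ) * x i * x j =
      d0 * (x 0 + c01 * x 1 + c02 * x 2 + c03 * x 3) ^ 2
        + d1 * (x 1 + c12 * x 2 + c13 * x 3) ^ 2
        + d2 * (x 2 + c23 * x 3) ^ 2 + d3 * (x 3) ^ 2

/-- The quadratic form `Q(x) = xᵀ A x / 2` (integer valued since `A` is even). -/
def QuatData.Q {p : ℕ} (D : QuatData p) (x : Fin 4 → ℤ) : ℤ :=
  (∑ i, ∑ j, D.A i j * x i * x j) / 2

/-- Representation numbers `r(n) = #{x ∈ ℤ⁴ : Q(x) = n}`. -/
noncomputable def QuatData.rep {p : ℕ} (D : QuatData p) (n : ℕ) : ℕ :=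
  Nat.card {x : Fin 4 → ℤ // D.Q x = (n : ℤ)}

/-- Abstract "theta system" of level `p`: functions `Θ h` on the upper half plane indexed by a
finite abelian group `G` carrying a nondegenerate `ZMod p`-valued quadratic form `t` with polar
form `b`, transforming under `T` and `S` by the Weil-type laws (weight `2`). -/
structure ThetaSys (p : ℕ) [NeZero p] (G : Type) [AddCommGroup G] [Fintype G] where
  Θ : G → ℍ → ℂ
  t : G → ZMod p
  b : G → G → ZMod p
  b_add_left : ∀ h h' l, b (h + h') l = b h l + b h' l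
  b_symm : ∀ h l, b h l = b l h
  t_add : ∀ h l, t (h + l) = t h + t l + b h l
  t_neg : ∀ h, t (-h) = t h
  nondeg : ∀ h, (∀ l, b h l = 0) → h = 0
  Θ_neg : ∀ h τ, Θ (-h) τ = Θ h τ
  T_law : ∀ h (τ : ℍ), Θ h ((1 : ℝ) +ᵥ τ) = ZMod.stdAddChar (t h) * Θ h τ
  S_law : ∀ h (τ : ℍ), Θ h (ModularGroup.S • τ) =
    -((τ : ℂ) ^ 2 / (p : ℂ)) * ∑ l, ZMod.stdAddChar (b h l) * Θ l τ
  holo : MDiff (Θ 0)
  bdd : ∀ h, IsBoundedAtImInfty (Θ h)
  Θ_zero_ne : ∃ τ, Θ 0 τ ≠ 0

end Fermat.Agent.S16.Theta
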