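/-
S16 lower bound, theta route (helper275): Gaussian inversion (Poisson summation for Gaussians)
in `n` variables, for a quadratic form given in triangular form
`∑ᵢ dᵢ (xᵢ + ∑_{j>i} cᵢⱼ xⱼ)²`, by induction on `n` from the one-dimensional
`Complex.tsum_exp_neg_quadratic`.  Main result: `inversion`.
-/
import Mathlib

set_option autoImplicit false

open Complex Real

namespace Fermat.Agent.S16.Theta

/-! ## One-dimensional Gaussian sums -/

/-- one-dimensional Gaussian summand with real shift `s` and real phase `v` -/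
noncomputable def g1 (τ : ℂ) (d s v : ℝ) (x : ℤ) : ℂ :=
  cexp (π * I * τ * d * ((x : ℂ) + s) ^ 2 + 2 * π * I * v * ((x : ℂ) + s))

/-- the dual one-dimensional summand -/
noncomputable def g1dual (τ : ℂ) (d s v : ℝ) (y : ℤ) : ℂ :=
  cexp (-π * I / τ * (((y : ℂ) - v) ^ 2 / d) + 2 * π * I * y * s)

theorem g1_eq_term (τ : ℂ) (d s v : ℝ) (x : ℤ) :
    g1 τ d s v x = cexp (π * I * τ * d * s ^ 2 + 2 * π * I * v * s) *
      jacobiTheta₂_term x (τ * d * s + v) (τ * d) := by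
  rw [g1, jacobiTheta₂_term, ← Complex.exp_add]
  congr 1
  ring

theorem summable_g1 {τ : ℂ} (hτ : 0 < τ.im) {d : ℝ} (hd : 0 < d) (s v : ℝ) :
    Summable (g1 τ d s v) := by
  have h : 0 < (τ * d).im := by
    rw [mul_comm, im_ofReal_mul]
    exact mul_pos hd hτ
  have := ((summable_jacobiTheta₂_term_iff (τ * d * s + v) (τ * d)).mpr h).mul_left
    (cexp (π * I * τ * d * s ^ 2 + 2 * π * I * v * s))
  exact this.congr fun x => (g1_eq_term τ d s v x).symm

theorem norm_g1 (τ : ℂ) (d s v : ℝ) (x : ℤ) :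
    ‖g1 τ d s v x‖ = rexp (-π * τ.im * d * ((x : ℝ) + s) ^ 2) := by
  rw [g1, Complex.norm_exp]
  congr 1
  have h1 : (π * I * τ * d * ((x : ℂ) + s) ^ 2 + 2 * π * I * v * ((x : ℂ) + s))
      = ((π * d * ((x : ℝ) + s) ^ 2 : ℝ) : ℂ) * (I * τ)
        + ((2 * π * v * ((x : ℝ) + s) : ℝ) : ℂ) * I := by
    push_cast; ring
  rw [h1, add_re, re_ofReal_mul, re_ofReal_mul, I_re, mul_zero, add_zero, mul_re, I_re, I_im]
  ring

theorem im_neg_inv_pos {τ : ℂ} (hτ : 0 < τ.im) : 0 < (-1 / τ).im := by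
  have hτ0 : τ ≠ 0 := by
    rintro rfl
    simp at hτ
  rw [neg_div, neg_im, one_div, inv_im, neg_div, neg_neg]
  exact div_pos hτ (normSq_pos.mpr hτ0)

theorem g1dual_eq_g1 {τ : ℂ} (hτ : τ ≠ 0) {d : ℝ} (hd : d ≠ 0) (s v : ℝ) (y : ℤ) :
    g1dual τ d s v y = cexp (2 * π * I * s * v) * g1 (-1 / τ) (1 / d) (-v) s y := by
  have hd0 : (d : ℂ) ≠ 0 := by exact_mod_cast hd
  rw [g1dual, g1, ← Complex.exp_add]
  congr 1
  push_cast
  field_simp
  ring

theorem summable_g1dual {τ : ℂ} (hτ : 0 < τ.im) {d : ℝ} (hd : 0 < d) (s v : ℝ) :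
    Summable (g1dual τ d s v) := by
  have hτ0 : τ ≠ 0 := by
    rintro rfl
    simp at hτ
  have := (summable_g1 (im_neg_inv_pos hτ) (one_div_pos.mpr hd) (-v) s).mul_left
    (cexp (2 * π * I * s * v))
  exact this.congr fun y => (g1dual_eq_g1 hτ0 hd.ne' s v y).symm

theorem norm_g1dual {τ : ℂ} (hτ : τ ≠ 0) {d : ℝ} (hd : d ≠ 0) (s v : ℝ) (y : ℤ) :
    ‖g1dual τ d s v y‖ = rexp (-π * (-1 / τ).im * (1 / d) * ((y : ℝ) - v) ^ 2) := by
  rw [g1dual_eq_g1 hτ hd, norm_mul, norm_g1]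
  have : ‖cexp (2 * π * I * s * v)‖ = 1 := by
    rw [Complex.norm_exp]
    have : (2 * π * I * s * v : ℂ) = ((2 * π * s * v : ℝ) : ℂ) * I := by push_cast; ring
    rw [this, re_ofReal_mul, I_re, mul_zero, Real.exp_zero]
  rw [this, one_mul, sub_eq_add_neg]

theorem tsum_g1 {τ : ℂ} (hτ : 0 < τ.im) {d : ℝ} (hd : 0 < d) (s v : ℝ) :
    ∑' x, g1 τ d s v x = 1 / (-I * τ * d) ^ (1 / 2 : ℂ) * ∑' y, g1dual τ d s v y := by
  have hτ0 : τ ≠ 0 := by
    rintro rfl
    simp at hτ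
  have hd0 : (d : ℂ) ≠ 0 := by exact_mod_cast hd.ne'
  have ha : 0 < (-I * τ * d).re := by
    have : (-I * τ * d) = ((d : ℝ) : ℂ) * (-I * τ) := by ring
    rw [this, re_ofReal_mul]
    have : (-I * τ).re = τ.im := by simp
    rw [this]
    exact mul_pos hd hτ
  have key := Complex.tsum_exp_neg_quadratic ha (I * (τ * d * s + v))
  have h1 : ∀ x : ℤ, g1 τ d s v x = cexp (π * I * τ * d * s ^ 2 + 2 * π * I * v * s) *
      cexp (-π * (-I * τ * d) * (x : ℂ) ^ 2 + 2 * π * (I * (τ * d * s + v)) * x) := by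
    intro x
    rw [g1, ← Complex.exp_add]
    congr 1
    ring
  have h2 : ∀ y : ℤ, g1dual τ d s v y = cexp (π * I * τ * d * s ^ 2 + 2 * π * I * v * s) *
      cexp (-π / (-I * τ * d) * ((y : ℂ) + I * (I * (τ * d * s + v))) ^ 2) := by
    intro y
    rw [g1dual, ← Complex.exp_add]
    congr 1
    field_simp
    ring_nf
    simp only [I_sq, I_pow_four]
    ring
  simp_rw [h1, h2, tsum_mul_left, key]
  ring

/-- a bound for `∑ ‖g1‖`, uniform in the shift -/
noncomputable def bound1 (T d : ℝ) : ℝ :=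
  ‖1 / (-I * (I * T) * d) ^ (1 / 2 : ℂ)‖ * ∑' y : ℤ, ‖g1dual (I * T) d 0 0 y‖

theorem tsum_norm_g1_le {τ : ℂ} (hτ : 0 < τ.im) {d : ℝ} (hd : 0 < d) (s v : ℝ) :
    ∑' x, ‖g1 τ d s v x‖ ≤ bound1 τ.im d := by
  set T := τ.im with hT
  have hIT : 0 < (I * (T : ℂ)).im := by simpa using hτ
  have hIT0 : I * (T : ℂ) ≠ 0 := by
    intro h
    rw [h] at hIT
    simp at hIT
  have hreal : ∀ x : ℤ, g1 (I * T) d s 0 x = ((‖g1 τ d s v x‖ : ℝ) : ℂ) := by
    intro x
    rw [norm_g1, g1, ofReal_exp]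
    congr 1
    push_cast
    ring_nf
    rw [I_sq]
    ring
  have hsum : Summable fun x => ‖g1 τ d s v x‖ := (summable_g1 hτ hd s v).norm
  have h1 : ((∑' x, ‖g1 τ d s v x‖ : ℝ) : ℂ) = ∑' x, g1 (I * T) d s 0 x := by
    rw [ofReal_tsum]
    exact tsum_congr fun x => (hreal x).symm
  have h2 := tsum_g1 hIT hd s 0
  have h3 : ∀ y : ℤ, ‖g1dual (I * T) d s 0 y‖ = ‖g1dual (I * T) d 0 0 y‖ := by
    intro y
    rw [norm_g1dual hIT0 hd.ne', norm_g1dual hIT0 hd.ne']
  have h4 : ∑' x, ‖g1 τ d s v x‖ = ‖∑' x, g1 (I * T) d s 0 x‖ := by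
    rw [← h1, Complex.norm_real, Real.norm_of_nonneg (tsum_nonneg fun x => norm_nonneg _)]
  rw [h4, h2, norm_mul, bound1]
  refine mul_le_mul_of_nonneg_left ?_ (norm_nonneg _)
  refine (norm_tsum_le_tsum_norm (summable_g1dual hIT hd s 0).norm).trans ?_
  exact le_of_eq (tsum_congr h3)

/-! ## Triangular data and the `n`-dimensional Gaussian sums -/

/-- triangular data: diagonal `d i` and strictly upper coefficients `c i j` (`i < j`). -/
structure Tri where
  d : ℕ → ℝ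
  c : ℕ → ℕ → ℝ

/-- drop the first variable -/
def Tri.shift (D : Tri) : Tri := ⟨fun i => D.d (i + 1), fun i j => D.c (i + 1) (j + 1)⟩

/-- the linear form `∑ⱼ c₀,ⱼ₊₁ xⱼ` in the remaining variables -/
def lin (n : ℕ) (D : Tri) (x : Fin n → ℝ) : ℝ := ∑ j : Fin n, D.c 0 ((j : ℕ) + 1) * x j

/-- the quadratic form `∑ᵢ dᵢ (xᵢ + ∑_{j>i} cᵢⱼ xⱼ)²` -/
def quad : (n : ℕ) → Tri → (Fin n → ℝ) → ℝ
  | 0, _, _ => 0
  | n + 1, D, x => D.d 0 * (x 0 + lin n D (fun j => x j.succ)) ^ 2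
      + quad n D.shift (fun j => x j.succ)

/-- the dual quadratic form (inverse Gram matrix) -/
noncomputable def dualQuad : (n : ℕ) → Tri → (Fin n → ℝ) → ℝ
  | 0, _, _ => 0
  | n + 1, D, w => (w 0) ^ 2 / D.d 0
      + dualQuad n D.shift (fun j => w j.succ - D.c 0 ((j : ℕ) + 1) * w 0)

/-- the prefactor `∏ᵢ (-i τ dᵢ)^(-1/2)` -/
noncomputable def pref : ℕ → Tri → ℂ → ℂ
  | 0, _, _ => 1
  | n + 1, D, τ => 1 / (-I * τ * D.d 0) ^ (1 / 2 : ℂ) * pref n D.shift τ

/-- positivity of the first `n` diagonal entries -/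
def Tri.Pos (n : ℕ) (D : Tri) : Prop := ∀ i < n, 0 < D.d i

theorem Tri.Pos.shift {n : ℕ} {D : Tri} (h : D.Pos (n + 1)) : D.shift.Pos n :=
  fun i hi => h (i + 1) (by omega)

/-- the Gaussian summand with real shift `u` and real phase `v` -/
noncomputable def P (n : ℕ) (D : Tri) (τ : ℂ) (u v : Fin n → ℝ) (x : Fin n → ℤ) : ℂ :=
  cexp (π * I * τ * ((quad n D (fun i => (x i : ℝ) + u i) : ℝ) : ℂ)
    + 2 * π * I * ((∑ i, v i * ((x i : ℝ) + u i) : ℝ) : ℂ))

/-- the dual Gaussian summand -/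
noncomputable def Pd (n : ℕ) (D : Tri) (τ : ℂ) (u v : Fin n → ℝ) (y : Fin n → ℤ) : ℂ :=
  cexp (-π * I / τ * ((dualQuad n D (fun i => (y i : ℝ) - v i) : ℝ) : ℂ)
    + 2 * π * I * ((∑ i, (y i : ℝ) * u i : ℝ) : ℂ))

/-- splitting off the first coordinate -/
def consE (n : ℕ) : ℤ × (Fin n → ℤ) ≃ (Fin (n + 1) → ℤ) where
  toFun q := Fin.cons q.1 q.2
  invFun x := (x 0, fun j => x j.succ)
  left_inv q := by simp
  right_inv x := by
    funext i
    refine Fin.cases ?_ (fun j => ?_) i <;> simp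

@[simp] theorem consE_apply_zero (n : ℕ) (q : ℤ × (Fin n → ℤ)) : consE n q 0 = q.1 := rfl

@[simp] theorem consE_apply_succ (n : ℕ) (q : ℤ × (Fin n → ℤ)) (j : Fin n) :
    consE n q j.succ = q.2 j := by
  simp [consE]

theorem norm_P (n : ℕ) (D : Tri) (τ : ℂ) (u v : Fin n → ℝ) (x : Fin n → ℤ) :
    ‖P n D τ u v x‖ = rexp (-π * τ.im * quad n D (fun i => (x i : ℝ) + u i)) := by
  rw [P, Complex.norm_exp]
  congr 1
  rw [add_re]
  have h1 : (π * I * τ * ((quad n D (fun i => (x i : ℝ) + u i) : ℝ) : ℂ))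
      = ((π * quad n D (fun i => (x i : ℝ) + u i) : ℝ) : ℂ) * (I * τ) := by
    push_cast; ring
  have h2 : (2 * π * I * ((∑ i, v i * ((x i : ℝ) + u i) : ℝ) : ℂ))
      = ((2 * π * ∑ i, v i * ((x i : ℝ) + u i) : ℝ) : ℂ) * I := by
    push_cast; ring
  rw [h1, h2, re_ofReal_mul, re_ofReal_mul, I_re, mul_zero, add_zero, mul_re, I_re, I_im]
  ring

/-- step lemma 1: the summand in dimension `n+1` factors. -/
theorem P_succ (n : ℕ) (D : Tri) (τ : ℂ) (u v : Fin (n + 1) → ℝ) (q : ℤ × (Fin n → ℤ)) :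
    P (n + 1) D τ u v (consE n q) =
      g1 τ (D.d 0) (u 0 + lin n D (fun j => (q.2 j : ℝ) + u j.succ)) (v 0) q.1
        * cexp (-(2 * π * I * (v 0) * (lin n D (fun j => (q.2 j : ℝ) + u j.succ) : ℝ)))
        * P n D.shift τ (fun j => u j.succ) (fun j => v j.succ) q.2 := by
  rw [P, P, g1, ← Complex.exp_add, ← Complex.exp_add]
  congr 1
  simp only [quad, Fin.sum_univ_succ, consE_apply_zero, consE_apply_succ]
  push_cast
  ring

/-- step lemma 2 -/
theorem g1dual_add (τ : ℂ) (d s β v : ℝ) (y : ℤ) :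
    g1dual τ d (s + β) v y = g1dual τ d s v y * cexp (2 * π * I * y * β) := by
  rw [g1dual, g1dual, ← Complex.exp_add]
  congr 1
  push_cast
  ring

/-- step lemma 3: a phase linear in the shifted variable is absorbed by `v`. -/
theorem P_phase (n : ℕ) (D D' : Tri) (τ : ℂ) (u v : Fin n → ℝ) (a : ℝ) (x : Fin n → ℤ) :
    cexp (2 * π * I * a * (lin n D' (fun j => (x j : ℝ) + u j) : ℝ)) * P n D τ u v x
      = P n D τ u (fun j => v j + a * D'.c 0 ((j : ℕ) + 1)) x := by
  rw [P, P, ← Complex.exp_add]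
  congr 1
  have : (∑ i, (v i + a * D'.c 0 ((i : ℕ) + 1)) * ((x i : ℝ) + u i) : ℝ)
      = (∑ i, v i * ((x i : ℝ) + u i)) + a * lin n D' (fun j => (x j : ℝ) + u j) := by
    rw [lin, Finset.mul_sum, ← Finset.sum_add_distrib]
    refine Finset.sum_congr rfl fun i _ => ?_
    ring
  rw [this]
  push_cast
  ring

/-- step lemma 4: the dual summand in dimension `n+1` factors. -/
theorem Pd_succ (n : ℕ) (D : Tri) (τ : ℂ) (u v : Fin (n + 1) → ℝ) (q : ℤ × (Fin n → ℤ)) :
    Pd (n + 1) D τ u v (consE n q) =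
      g1dual τ (D.d 0) (u 0) (v 0) q.1
        * Pd n D.shift τ (fun j => u j.succ)
            (fun j => v j.succ + ((q.1 : ℝ) - v 0) * D.c 0 ((j : ℕ) + 1)) q.2 := by
  rw [Pd, Pd, g1dual, ← Complex.exp_add]
  congr 1
  simp only [dualQuad, Fin.sum_univ_succ, consE_apply_zero, consE_apply_succ]
  have : (fun j : Fin n => (q.2 j : ℝ) - v j.succ - D.c 0 ((j : ℕ) + 1) * ((q.1 : ℝ) - v 0))
      = (fun j : Fin n => (q.2 j : ℝ) - (v j.succ + ((q.1 : ℝ) - v 0) * D.c 0 ((j : ℕ) + 1))) := by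
    funext j; ring
  rw [this]
  push_cast
  ring

theorem norm_g1dual_eq {τ : ℂ} (hτ : τ ≠ 0) {d : ℝ} (hd : d ≠ 0) (s v : ℝ) (y : ℤ) :
    ‖g1dual τ d s v y‖ = ‖g1 (-1 / τ) (1 / d) (-v) s y‖ := by
  rw [norm_g1dual hτ hd, norm_g1, sub_eq_add_neg]

theorem tsum_norm_g1dual_le {τ : ℂ} (hτ : 0 < τ.im) {d : ℝ} (hd : 0 < d) (s v : ℝ) :
    ∑' y, ‖g1dual τ d s v y‖ ≤ bound1 (-1 / τ).im (1 / d) := by
  have hτ0 : τ ≠ 0 := by
    rintro rfl
    simp at hτ
  rw [tsum_congr (norm_g1dual_eq hτ0 hd.ne' s v)]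
  exact tsum_norm_g1_le (im_neg_inv_pos hτ) (one_div_pos.mpr hd) (-v) s

theorem norm_phase (a b : ℝ) : ‖cexp (-(2 * π * I * a * (b : ℝ)))‖ = 1 := by
  rw [Complex.norm_exp]
  have : (-(2 * π * I * a * (b : ℝ)) : ℂ) = ((-(2 * π * a * b) : ℝ) : ℂ) * I := by
    push_cast; ring
  rw [this, re_ofReal_mul, I_re, mul_zero, Real.exp_zero]

theorem inversion_aux (n : ℕ) : ∀ (D : Tri), D.Pos n → ∀ (τ : ℂ), 0 < τ.im →
    (∃ C : ℝ, ∀ u v : Fin n → ℝ, Summable (Pd n D τ u v) ∧ ∑' y, ‖Pd n D τ u v y‖ ≤ C) ∧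
    ∀ u v : Fin n → ℝ, Summable (P n D τ u v) ∧
      ∑' x, P n D τ u v x = pref n D τ * ∑' y, Pd n D τ u v y := by
  induction n with
  | zero =>
    intro D _ τ _
    have hP : ∀ u v : Fin 0 → ℝ, ∀ x, P 0 D τ u v x = 1 := by
      intro u v x
      simp [P, quad]
    have hPd : ∀ u v : Fin 0 → ℝ, ∀ x, Pd 0 D τ u v x = 1 := by
      intro u v x
      simp [Pd, dualQuad]
    refine ⟨⟨1, fun u v => ⟨Summable.of_finite, ?_⟩⟩, fun u v => ⟨Summable.of_finite, ?_⟩⟩
    · rw [tsum_eq_single default (fun b hb => absurd (Subsingleton.elim b default) hb)]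
      rw [hPd]
      simp
    · rw [tsum_eq_single default (fun b hb => absurd (Subsingleton.elim b default) hb),
        tsum_eq_single default (fun b hb => absurd (Subsingleton.elim b default) hb), hP, hPd]
      simp [pref]
  | succ n ih =>
    intro D hpos τ hτ
    have hd0 : 0 < D.d 0 := hpos 0 (Nat.succ_pos n)
    obtain ⟨⟨C, hC⟩, hP⟩ := ih D.shift hpos.shift τ hτ
    have hτ0 : τ ≠ 0 := by
      rintro rfl
      simp at hτ
    -- dual side: summability with a uniform bound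
    have hdual : ∀ u v : Fin (n + 1) → ℝ,
        Summable (fun q : ℤ × (Fin n → ℤ) => ‖Pd (n + 1) D τ u v (consE n q)‖) ∧
        ∑' q : ℤ × (Fin n → ℤ), ‖Pd (n + 1) D τ u v (consE n q)‖
          ≤ bound1 (-1 / τ).im (1 / D.d 0) * C := by
      intro u v
      have hF : ∀ q : ℤ × (Fin n → ℤ), ‖Pd (n + 1) D τ u v (consE n q)‖
          = ‖g1dual τ (D.d 0) (u 0) (v 0) q.1‖ * ‖Pd n D.shift τ (fun j => u j.succ)
            (fun j => v j.succ + ((q.1 : ℝ) - v 0) * D.c 0 ((j : ℕ) + 1)) q.2‖ := by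
        intro q
        rw [Pd_succ, norm_mul]
      have hA : Summable fun y0 : ℤ => ‖g1dual τ (D.d 0) (u 0) (v 0) y0‖ :=
        (summable_g1dual hτ hd0 (u 0) (v 0)).norm
      have h1 : ∀ y0 : ℤ, Summable fun y' : Fin n → ℤ =>
          ‖Pd (n + 1) D τ u v (consE n (y0, y'))‖ := by
        intro y0
        simp only [hF]
        exact ((hC _ _).1.norm).mul_left _
      have h2 : ∀ y0 : ℤ, ∑' y' : Fin n → ℤ, ‖Pd (n + 1) D τ u v (consE n (y0, y'))‖
          ≤ ‖g1dual τ (D.d 0) (u 0) (v 0) y0‖ * C := by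
        intro y0
        simp only [hF]
        rw [tsum_mul_left]
        exact mul_le_mul_of_nonneg_left (hC _ _).2 (norm_nonneg _)
      have h3 : Summable fun y0 : ℤ =>
          ∑' y' : Fin n → ℤ, ‖Pd (n + 1) D τ u v (consE n (y0, y'))‖ :=
        Summable.of_nonneg_of_le (fun y0 => tsum_nonneg fun _ => norm_nonneg _) h2
          (hA.mul_right C)
      have hsum : Summable (fun q : ℤ × (Fin n → ℤ) => ‖Pd (n + 1) D τ u v (consE n q)‖) :=
        (summable_prod_of_nonneg (fun q => norm_nonneg _)).mpr ⟨h1, h3⟩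
      refine ⟨hsum, ?_⟩
      rw [hsum.tsum_prod' h1]
      have hC0 : 0 ≤ C := le_trans (tsum_nonneg fun _ => norm_nonneg _)
        (hC (fun _ => 0) (fun _ => 0)).2
      calc ∑' y0 : ℤ, ∑' y' : Fin n → ℤ, ‖Pd (n + 1) D τ u v (consE n (y0, y'))‖
          ≤ ∑' y0 : ℤ, ‖g1dual τ (D.d 0) (u 0) (v 0) y0‖ * C :=
            h3.tsum_le_tsum h2 (hA.mul_right C)
        _ = (∑' y0 : ℤ, ‖g1dual τ (D.d 0) (u 0) (v 0) y0‖) * C := tsum_mul_right
        _ ≤ bound1 (-1 / τ).im (1 / D.d 0) * C :=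
            mul_le_mul_of_nonneg_right (tsum_norm_g1dual_le hτ hd0 _ _) hC0
    have hdualS : ∀ u v : Fin (n + 1) → ℝ, Summable (Pd (n + 1) D τ u v) := by
      intro u v
      exact (consE n).summable_iff.mp (Summable.of_norm (hdual u v).1)
    refine ⟨⟨bound1 (-1 / τ).im (1 / D.d 0) * C, fun u v => ⟨hdualS u v, ?_⟩⟩, ?_⟩
    · rw [← (consE n).tsum_eq]
      exact (hdual u v).2
    · intro u v
      -- notation
      set u' : Fin n → ℝ := fun j => u j.succ with hu'
      set v' : Fin n → ℝ := fun j => v j.succ with hv'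
      set β : (Fin n → ℤ) → ℝ := fun x' => lin n D (fun j => (x' j : ℝ) + u' j) with hβ
      -- summability of `P (n+1)` on `(Fin n → ℤ) × ℤ`
      have hG : ∀ r : (Fin n → ℤ) × ℤ, ‖P (n + 1) D τ u v (consE n (r.2, r.1))‖
          = ‖g1 τ (D.d 0) (u 0 + β r.1) (v 0) r.2‖ * ‖P n D.shift τ u' v' r.1‖ := by
        intro r
        rw [P_succ, norm_mul, norm_mul, norm_phase, mul_one]
      have g1S : ∀ x' : Fin n → ℤ, Summable fun x0 : ℤ =>
          ‖P (n + 1) D τ u v (consE n (x0, x'))‖ := by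
        intro x'
        have := fun x0 : ℤ => hG (x', x0)
        simp only at this
        simp only [this]
        exact ((summable_g1 hτ hd0 _ _).norm).mul_right _
      have g2 : ∀ x' : Fin n → ℤ, ∑' x0 : ℤ, ‖P (n + 1) D τ u v (consE n (x0, x'))‖
          ≤ bound1 τ.im (D.d 0) * ‖P n D.shift τ u' v' x'‖ := by
        intro x'
        have := fun x0 : ℤ => hG (x', x0)
        simp only at this
        simp only [this]
        rw [tsum_mul_right]
        exact mul_le_mul_of_nonneg_right (tsum_norm_g1_le hτ hd0 _ _) (norm_nonneg _)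
      have g3 : Summable fun x' : Fin n → ℤ =>
          ∑' x0 : ℤ, ‖P (n + 1) D τ u v (consE n (x0, x'))‖ :=
        Summable.of_nonneg_of_le (fun _ => tsum_nonneg fun _ => norm_nonneg _) g2
          (((hP u' v').1.norm).mul_left _)
      have hsumG : Summable (fun r : (Fin n → ℤ) × ℤ =>
          P (n + 1) D τ u v (consE n (r.2, r.1))) :=
        Summable.of_norm ((summable_prod_of_nonneg (fun r => norm_nonneg _)).mpr ⟨g1S, g3⟩)
      have hPS : Summable (P (n + 1) D τ u v) := by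
        have := ((Equiv.prodComm (Fin n → ℤ) ℤ).trans (consE n)).summable_iff
          (f := P (n + 1) D τ u v)
        exact this.mp hsumG
      refine ⟨hPS, ?_⟩
      -- the identity
      have e1 : ∑' x, P (n + 1) D τ u v x
          = ∑' x' : Fin n → ℤ, ∑' x0 : ℤ, P (n + 1) D τ u v (consE n (x0, x')) := by
        rw [← ((Equiv.prodComm (Fin n → ℤ) ℤ).trans (consE n)).tsum_eq]
        exact hsumG.tsum_prod' (fun x' => Summable.of_norm (g1S x'))
      -- inner sums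
      set A : ℤ → ℂ := fun y0 => g1dual τ (D.d 0) (u 0) (v 0) y0 with hA
      set w : ℤ → Fin n → ℝ := fun y0 j => v' j + ((y0 : ℝ) - v 0) * D.c 0 ((j : ℕ) + 1) with hw
      set H : (Fin n → ℤ) → ℤ → ℂ := fun x' y0 => A y0 * P n D.shift τ u' (w y0) x' with hH
      have e2 : ∀ x' : Fin n → ℤ, ∑' x0 : ℤ, P (n + 1) D τ u v (consE n (x0, x'))
          = 1 / (-I * τ * D.d 0) ^ (1 / 2 : ℂ) * ∑' y0 : ℤ, H x' y0 := by
        intro x'
        have h1 : ∀ x0 : ℤ, P (n + 1) D τ u v (consE n (x0, x'))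
            = g1 τ (D.d 0) (u 0 + β x') (v 0) x0
              * (cexp (-(2 * π * I * (v 0) * (β x' : ℝ))) * P n D.shift τ u' v' x') := by
          intro x0
          rw [P_succ, mul_assoc]
        simp only [h1]
        rw [tsum_mul_right, tsum_g1 hτ hd0, mul_assoc, ← tsum_mul_right]
        congr 1
        refine tsum_congr fun y0 => ?_
        rw [g1dual_add, hH]
        simp only
        rw [← P_phase n D.shift D τ u' v' ((y0 : ℝ) - v 0) x']
        have : cexp (2 * π * I * (y0 : ℂ) * (β x' : ℝ)) * cexp (-(2 * π * I * (v 0) * (β x' : ℝ)))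
            = cexp (2 * π * I * (((y0 : ℝ) - v 0 : ℝ) : ℂ) * (β x' : ℝ)) := by
          rw [← Complex.exp_add]
          congr 1
          push_cast
          ring
        rw [mul_assoc, ← mul_assoc (cexp _) (cexp _), this]
      -- summability of `H` on the product
      have hHn : ∀ r : (Fin n → ℤ) × ℤ, ‖H r.1 r.2‖ = ‖P n D.shift τ u' v' r.1‖ * ‖A r.2‖ := by
        intro r
        rw [hH]
        simp only
        rw [norm_mul, norm_P, norm_P, mul_comm]
      have hAS : Summable fun y0 : ℤ => ‖A y0‖ := (summable_g1dual hτ hd0 (u 0) (v 0)).norm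
      have hHS : Summable (Function.uncurry H) := by
        refine Summable.of_norm ?_
        have := Summable.mul_of_nonneg ((hP u' v').1.norm) hAS (fun _ => norm_nonneg _)
          (fun _ => norm_nonneg _)
        refine this.congr fun r => ?_
        exact (hHn r).symm
      have hH1 : ∀ x' : Fin n → ℤ, Summable (H x') := by
        intro x'
        refine Summable.of_norm ?_
        have := fun y0 : ℤ => hHn (x', y0)
        simp only at this
        simp only [this]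
        exact hAS.mul_left _
      have hH2 : ∀ y0 : ℤ, Summable fun x' : Fin n → ℤ => H x' y0 := by
        intro y0
        exact ((hP u' (w y0)).1).mul_left (A y0)
      have e3 : ∀ y0 : ℤ, ∑' x' : Fin n → ℤ, H x' y0
          = pref n D.shift τ * ∑' y' : Fin n → ℤ, Pd (n + 1) D τ u v (consE n (y0, y')) := by
        intro y0
        rw [hH]
        simp only
        rw [tsum_mul_left, (hP u' (w y0)).2, ← mul_assoc, mul_comm (A y0), mul_assoc,
          ← tsum_mul_left]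
        congr 1
        refine tsum_congr fun y' => ?_
        rw [Pd_succ]
      rw [e1]
      simp only [e2]
      rw [tsum_mul_left, ← hHS.tsum_comm' hH1 hH2]
      simp only [e3]
      rw [tsum_mul_left, ← (consE n).tsum_eq,
        (Summable.of_norm (hdual u v).1).tsum_prod'
          (fun y0 => Summable.of_norm (by
            have := (summable_prod_of_nonneg (f := fun q : ℤ × (Fin n → ℤ) =>
              ‖Pd (n + 1) D τ u v (consE n q)‖) (fun q => norm_nonneg _)).mp (hdual u v).1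
            exact this.1 y0))]
      rw [pref]
      ring

/-- **Gaussian inversion formula** in `n` variables for triangular data. -/
theorem inversion (n : ℕ) (D : Tri) (hD : D.Pos n) {τ : ℂ} (hτ : 0 < τ.im) (u v : Fin n → ℝ) :
    ∑' x, P n D τ u v x = pref n D τ * ∑' y, Pd n D τ u v y :=
  ((inversion_aux n D hD τ hτ).2 u v).2

theorem summable_P (n : ℕ) (D : Tri) (hD : D.Pos n) {τ : ℂ} (hτ : 0 < τ.im) (u v : Fin n → ℝ) :
    Summable (P n D τ u v) :=
  ((inversion_aux n D hD τ hτ).2 u v).1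

theorem summable_Pd (n : ℕ) (D : Tri) (hD : D.Pos n) {τ : ℂ} (hτ : 0 < τ.im) (u v : Fin n → ℝ) :
    Summable (Pd n D τ u v) := by
  obtain ⟨C, hC⟩ := (inversion_aux n D hD τ hτ).1
  exact (hC u v).1

end Fermat.Agent.S16.Theta
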