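/-
S16 lower bound, theta route: the ARITHMETIC input `QuatData p` exists for every odd prime `p`
(helper37).  The lattice is the uniform quaternary lattice `gram b c r` of `S16/Lattice.lean`
with `p = (4b-1)c - r²` (parameters from `S16/LatticeExists.lean`).
-/
import Mathlib
import Fermat.Agent.S16.Theta.Defs
import Fermat.Agent.S16.Lattice
import Fermat.Agent.S16.LatticeExists

set_option autoImplicit false

namespace Fermat.Agent.S16.Theta

open Matrix Finset Fermat.Agent.S16.Lattice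

/-- The triangular (Lagrange) decomposition of the quaternary form, over `ℝ`. -/
lemma quatCert (b c r q x0 x1 x2 x3 : ℝ) (hq : q ≠ 0) (hqb : q = 4 * b - 1) :
    2 * x0 ^ 2 + 2 * x0 * x1 + 2 * b * x1 ^ 2 + 2 * r * (x0 * x3 - x1 * x2)
        + 2 * c * (x2 ^ 2 + x2 * x3 + b * x3 ^ 2) =
      2 * (x0 + 1 / 2 * x1 + 0 * x2 + r / 2 * x3) ^ 2
        + q / 2 * (x1 + (-2 * r / q) * x2 + (-r / q) * x3) ^ 2
        + 2 * (q * c - r ^ 2) / q * (x2 + 1 / 2 * x3) ^ 2 + (q * c - r ^ 2) / 2 * x3 ^ 2 := by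
  have hb : b = (q + 1) / 4 := by linarith
  subst hb
  field_simp
  ring

/-- The `QuatData` attached to parameters `b c r` with `b ≥ 1` and `(4b-1)c - r² = p > 0`. -/
noncomputable def quatDataOfParams (p : ℕ) (b c r : ℤ) (hb : 1 ≤ b) (hp0 : 0 < p)
    (hp : (4 * b - 1) * c - r ^ 2 = (p : ℤ)) : QuatData p where
  A := gram b c r
  B := gramDual b c r
  A_symm := fun i j => by
    have := congrFun (congrFun (gram_isSymm b c r) j) i
    simpa [Matrix.transpose_apply] using this
  B_symm := fun i j => by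
    have := congrFun (congrFun (gramDual_isSymm b c r) j) i
    simpa [Matrix.transpose_apply] using this
  A_even := gram_even_diag b c r
  B_even := gramDual_even_diag b c r
  A_mul_B := by rw [gram_mul_gramDual, hp]
  d0 := 2
  d1 := (4 * (b : ℝ) - 1) / 2
  d2 := 2 * (p : ℝ) / (4 * (b : ℝ) - 1)
  d3 := (p : ℝ) / 2
  c01 := 1 / 2
  c02 := 0
  c03 := (r : ℝ) / 2
  c12 := -2 * (r : ℝ) / (4 * (b : ℝ) - 1)
  c13 := -(r : ℝ) / (4 * (b : ℝ) - 1)
  c23 := 1 / 2
  d0_pos := by norm_num
  d1_pos := by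
    have : (1 : ℝ) ≤ b := by exact_mod_cast hb
    linarith
  d2_pos := by
    have : (1 : ℝ) ≤ b := by exact_mod_cast hb
    have hpR : (0 : ℝ) < p := by exact_mod_cast hp0
    have hq : (0 : ℝ) < 4 * (b : ℝ) - 1 := by linarith
    positivity
  d3_pos := by
    have hpR : (0 : ℝ) < p := by exact_mod_cast hp0
    positivity
  d_prod := by
    have : (1 : ℝ) ≤ b := by exact_mod_cast hb
    have hq : (4 * (b : ℝ) - 1) ≠ 0 := by
      have : (0 : ℝ) < 4 * (b : ℝ) - 1 := by linarith
      exact this.ne'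
    field_simp
  quad_eq := fun x => by
    have hb' : (1 : ℝ) ≤ b := by exact_mod_cast hb
    have hq : (4 * (b : ℝ) - 1) ≠ 0 := by
      have : (0 : ℝ) < 4 * (b : ℝ) - 1 := by linarith
      exact this.ne'
    have hpR : (p : ℝ) = (4 * (b : ℝ) - 1) * c - (r : ℝ) ^ 2 := by
      have : ((p : ℤ) : ℝ) = (((4 * b - 1) * c - r ^ 2 : ℤ) : ℝ) := by rw [hp]
      push_cast at this
      exact this
    rw [hpR]
    simp only [Fin.sum_univ_four]
    have e : ∀ i j, (gram b c r i j : ℝ) =
        (!![2, 1, 0, (r : ℝ); 1, 2 * (b : ℝ), -(r : ℝ), 0; 0, -(r : ℝ), 2 * (c : ℝ), (c : ℝ);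
          (r : ℝ), 0, (c : ℝ), 2 * (b : ℝ) * (c : ℝ)] : Matrix (Fin 4) (Fin 4) ℝ) i j := by
      intro i j
      fin_cases i <;> fin_cases j <;> simp [Lattice.gram]
    have key := quatCert (b : ℝ) c r (4 * (b : ℝ) - 1) (x 0) (x 1) (x 2) (x 3) hq rfl
    simp only [e]
    simp
    linear_combination key

/-- **Arithmetic input of the theta route**: for every odd prime `p` there is an even integral
quaternary lattice of level `p` and discriminant `p²`. -/
theorem exists_quatData (p : ℕ) [Fact p.Prime] (hp2 : p ≠ 2) : Nonempty (QuatData p) := by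
  obtain ⟨b, c, r, hb, _, hp, _⟩ := Fermat.Agent.S16.Lattice.exists_params p hp2
  exact ⟨quatDataOfParams p b c r hb (Fact.out : p.Prime).pos hp⟩

end Fermat.Agent.S16.Theta
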