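/-
S16 lower bound, theta route (helper275): algebra of the triangular quadratic form
(gradient, polarisation, duality `dualQuad (A z) = quad z`) and of a `QuatData`
(real Gram matrix, dual vectors `u_h = B h / p`, integrality).
-/
import Mathlib
import Fermat.Agent.S16.Theta.Gauss
import Fermat.Agent.S16.Theta.Defs

set_option autoImplicit false

open Complex Real Matrix

namespace Fermat.Agent.S16.Theta


/-! ## The gradient of a triangular quadratic form -/

/-- half the gradient of `quad n D` (i.e. "`A z`" for the Gram matrix `A`) -/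
def grad : (n : ℕ) → Tri → (Fin n → ℝ) → (Fin n → ℝ)
  | 0, _, _ => fun _ => 0
  | n + 1, D, z => Fin.cons (D.d 0 * (z 0 + lin n D (fun j => z j.succ)))
      (fun j => D.d 0 * (z 0 + lin n D (fun j => z j.succ)) * D.c 0 ((j : ℕ) + 1)
        + grad n D.shift (fun j => z j.succ) j)

theorem dualQuad_grad (n : ℕ) : ∀ (D : Tri), D.Pos n → ∀ z : Fin n → ℝ,
    dualQuad n D (grad n D z) = quad n D z := by
  induction n with
  | zero => intro D _ z; simp [dualQuad, quad]
  | succ n ih =>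
    intro D hpos z
    have hd0 : D.d 0 ≠ 0 := (hpos 0 (Nat.succ_pos n)).ne'
    simp only [dualQuad, quad, grad, Fin.cons_zero, Fin.cons_succ]
    have : (fun j : Fin n => D.d 0 * (z 0 + lin n D (fun j => z j.succ)) * D.c 0 ((j : ℕ) + 1)
        + grad n D.shift (fun j => z j.succ) j
        - D.c 0 ((j : ℕ) + 1) * (D.d 0 * (z 0 + lin n D (fun j => z j.succ))))
        = grad n D.shift (fun j => z j.succ) := by
      funext j; ring
    rw [this, ih D.shift hpos.shift]
    field_simp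

theorem lin_add (n : ℕ) (D : Tri) (z w : Fin n → ℝ) :
    lin n D (fun j => z j + w j) = lin n D z + lin n D w := by
  simp only [lin, mul_add, Finset.sum_add_distrib]

theorem quad_add (n : ℕ) : ∀ (D : Tri) (z w : Fin n → ℝ),
    quad n D (fun i => z i + w i) = quad n D z + quad n D w + 2 * ∑ i, w i * grad n D z i := by
  induction n with
  | zero => intro D z w; simp [quad]
  | succ n ih =>
    intro D z w
    simp only [quad, grad, Fin.sum_univ_succ, Fin.cons_zero, Fin.cons_succ]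
    rw [lin_add, ih D.shift]
    have : ∑ j : Fin n, w j.succ * (D.d 0 * (z 0 + lin n D (fun j => z j.succ))
        * D.c 0 ((j : ℕ) + 1) + grad n D.shift (fun j => z j.succ) j)
        = D.d 0 * (z 0 + lin n D (fun j => z j.succ)) * lin n D (fun j => w j.succ)
          + ∑ j : Fin n, w j.succ * grad n D.shift (fun j => z j.succ) j := by
      generalize D.d 0 * (z 0 + lin n D (fun j => z j.succ)) = L
      rw [lin, Finset.mul_sum, ← Finset.sum_add_distrib]
      refine Finset.sum_congr rfl fun j _ => ?_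
      ring
    rw [this]
    ring

theorem quad_nonneg (n : ℕ) : ∀ (D : Tri), D.Pos n → ∀ z : Fin n → ℝ, 0 ≤ quad n D z := by
  induction n with
  | zero => intro D _ z; simp [quad]
  | succ n ih =>
    intro D hpos z
    simp only [quad]
    have := ih D.shift hpos.shift (fun j => z j.succ)
    have h0 := hpos 0 (Nat.succ_pos n)
    positivity

theorem quad_neg (n : ℕ) : ∀ (D : Tri) (z : Fin n → ℝ), quad n D (fun i => -z i) = quad n D z := by
  induction n with
  | zero => intro D z; simp [quad]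
  | succ n ih =>
    intro D z
    simp only [quad]
    rw [ih D.shift]
    have : lin n D (fun j => -z j.succ) = -lin n D (fun j => z j.succ) := by
      simp [lin, Finset.sum_neg_distrib]
    rw [this]
    ring

/-- `quad` vanishes only at `0` -/
theorem quad_eq_zero (n : ℕ) : ∀ (D : Tri), D.Pos n → ∀ z : Fin n → ℝ, quad n D z = 0 → z = 0 := by
  induction n with
  | zero => intro D _ z _; funext i; exact Fin.elim0 i
  | succ n ih =>
    intro D hpos z hz
    simp only [quad] at hz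
    have h0 := hpos 0 (Nat.succ_pos n)
    have h1 := quad_nonneg n D.shift hpos.shift (fun j => z j.succ)
    have h2 : 0 ≤ D.d 0 * (z 0 + lin n D (fun j => z j.succ)) ^ 2 := by positivity
    have h3 : quad n D.shift (fun j => z j.succ) = 0 := by linarith
    have h4 : D.d 0 * (z 0 + lin n D (fun j => z j.succ)) ^ 2 = 0 := by linarith
    have h5 := ih D.shift hpos.shift _ h3
    have h6 : ∀ j : Fin n, z j.succ = 0 := fun j => congrFun h5 j
    have h7 : lin n D (fun j => z j.succ) = 0 := by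
      simp [lin, h6]
    rw [h7, add_zero] at h4
    have h8 : z 0 = 0 := by
      rcases mul_eq_zero.mp h4 with h | h
      · exact absurd h h0.ne'
      · exact pow_eq_zero_iff (two_ne_zero) |>.mp h
    funext i
    refine Fin.cases h8 (fun j => h6 j) i

/-- monotonicity of the norm of the summand in `im τ` -/
theorem norm_P_le (n : ℕ) (D : Tri) (hD : D.Pos n) {τ σ : ℂ} (h : σ.im ≤ τ.im)
    (u v u' v' : Fin n → ℝ) (hu : u = u') (x : Fin n → ℤ) :
    ‖P n D τ u v x‖ ≤ ‖P n D σ u' v' x‖ := by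
  subst hu
  rw [norm_P, norm_P]
  apply Real.exp_le_exp.mpr
  have := quad_nonneg n D hD (fun i => (x i : ℝ) + u i)
  have hpi := Real.pi_pos
  nlinarith [mul_nonneg hpi.le this, mul_nonneg (mul_nonneg hpi.le this) (sub_nonneg.mpr h)]

theorem P_add_int (n : ℕ) (D : Tri) (τ : ℂ) (u v : Fin n → ℝ) (x0 x : Fin n → ℤ) :
    P n D τ (fun i => u i + (x0 i : ℝ)) v x = P n D τ u v (x + x0) := by
  rw [P, P]
  have : (fun i => ((x i : ℤ) : ℝ) + (u i + (x0 i : ℝ))) = (fun i => (((x + x0) i : ℤ) : ℝ) + u i) := by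
    funext i
    simp only [Pi.add_apply, Int.cast_add]
    ring
  rw [this]
  have h2 : ∀ i, v i * (((x i : ℤ) : ℝ) + (u i + (x0 i : ℝ))) = v i * ((((x + x0) i : ℤ) : ℝ) + u i) := by
    intro i
    simp only [Pi.add_apply, Int.cast_add]
    ring
  simp only [h2]



variable {p : ℕ} (D : QuatData p)

/-! ## Algebra of a `QuatData` -/

theorem QuatData.p_pos (D : QuatData p) : 0 < (p : ℝ) := by
  have h := D.d_prod
  have hpos : 0 < D.d0 * D.d1 * D.d2 * D.d3 :=
    mul_pos (mul_pos (mul_pos D.d0_pos D.d1_pos) D.d2_pos) D.d3_pos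
  rw [h] at hpos
  have : (p : ℝ) ≠ 0 := by
    rintro h0
    rw [h0] at hpos
    simp at hpos
  exact lt_of_le_of_ne (Nat.cast_nonneg p) (Ne.symm this)

theorem QuatData.p_ne_zero (D : QuatData p) : p ≠ 0 := by
  have := D.p_pos
  rintro rfl
  simp at this

/-- triangular data of a `QuatData` -/
def QuatData.tri : Tri where
  d := fun i => match i with
    | 0 => D.d0
    | 1 => D.d1
    | 2 => D.d2
    | _ => D.d3
  c := fun i j => match i, j with
    | 0, 1 => D.c01
    | 0, 2 => D.c02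
    | 0, 3 => D.c03
    | 1, 2 => D.c12
    | 1, 3 => D.c13
    | 2, 3 => D.c23
    | _, _ => 0

theorem QuatData.tri_pos : D.tri.Pos 4 := by
  intro i hi
  interval_cases i
  · exact D.d0_pos
  · exact D.d1_pos
  · exact D.d2_pos
  · exact D.d3_pos

theorem QuatData.quad_tri (x : Fin 4 → ℝ) :
    quad 4 D.tri x = ∑ i, ∑ j, (D.A i j : ℝ) * x i * x j := by
  rw [D.quad_eq]
  simp [quad, lin, Tri.shift, QuatData.tri, Fin.sum_univ_succ]
  ring

/-- the real Gram matrix -/
noncomputable def QuatData.AR : Matrix (Fin 4) (Fin 4) ℝ := D.A.map (Int.cast : ℤ → ℝ)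

/-- the real adjoint matrix -/
noncomputable def QuatData.BR : Matrix (Fin 4) (Fin 4) ℝ := D.B.map (Int.cast : ℤ → ℝ)

theorem QuatData.AR_mul_BR : D.AR * D.BR = (p : ℝ) • (1 : Matrix (Fin 4) (Fin 4) ℝ) := by
  ext i j
  have h := congrFun (congrFun D.A_mul_B i) j
  rw [Matrix.mul_apply, Matrix.smul_apply, Matrix.one_apply] at h
  have h' := congrArg (Int.cast : ℤ → ℝ) h
  rw [Matrix.mul_apply, Matrix.smul_apply, Matrix.one_apply]
  simp only [QuatData.AR, QuatData.BR, Matrix.map_apply, smul_eq_mul]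
  push_cast at h'
  rw [h']
  split_ifs <;> simp

theorem QuatData.BR_mul_AR : D.BR * D.AR = (p : ℝ) • (1 : Matrix (Fin 4) (Fin 4) ℝ) := by
  have hp : (p : ℝ) ≠ 0 := D.p_pos.ne'
  have h1 : D.AR * ((p : ℝ)⁻¹ • D.BR) = 1 := by
    rw [Matrix.mul_smul, D.AR_mul_BR, smul_smul, inv_mul_cancel₀ hp, one_smul]
  have h2 := mul_eq_one_comm.mp h1
  rw [Matrix.smul_mul] at h2
  have h3 := congrArg (fun M => (p : ℝ) • M) h2
  simp only [smul_smul, mul_inv_cancel₀ hp, one_smul] at h3
  exact h3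

theorem QuatData.B_mul_A : D.B * D.A = (p : ℤ) • (1 : Matrix (Fin 4) (Fin 4) ℤ) := by
  have h := D.BR_mul_AR
  rw [QuatData.AR, QuatData.BR, ← Matrix.map_mul_intCast] at h
  ext i j
  have hij := congrFun (congrFun h i) j
  simp only [Matrix.map_apply, Matrix.smul_apply, Matrix.one_apply] at hij
  simp only [Matrix.smul_apply, Matrix.one_apply]
  by_cases e : i = j
  · simp only [e, if_true, smul_eq_mul, mul_one] at hij ⊢
    exact_mod_cast hij
  · simp only [e, if_false, smul_eq_mul, mul_zero] at hij ⊢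
    exact_mod_cast hij

theorem QuatData.AR_symm : D.ARᵀ = D.AR := by
  ext i j
  simp [QuatData.AR, D.A_symm j i]

theorem QuatData.BR_symm : D.BRᵀ = D.BR := by
  ext i j
  simp [QuatData.BR, D.B_symm j i]

/-- the real vector of an integer vector -/
def toR (x : Fin 4 → ℤ) : Fin 4 → ℝ := fun i => (x i : ℝ)

/-- the dual vector `u_h = B h / p` -/
noncomputable def QuatData.uvec (h : Fin 4 → ℤ) : Fin 4 → ℝ := (p : ℝ)⁻¹ • (D.BR *ᵥ toR h)

theorem QuatData.AR_mulVec_uvec (h : Fin 4 → ℤ) : D.AR *ᵥ D.uvec h = toR h := by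
  have hp : (p : ℝ) ≠ 0 := D.p_pos.ne'
  rw [QuatData.uvec, Matrix.mulVec_smul, Matrix.mulVec_mulVec, D.AR_mul_BR, Matrix.smul_mulVec,
    Matrix.one_mulVec, smul_smul, inv_mul_cancel₀ hp, one_smul]

theorem toR_mulVec (M : Matrix (Fin 4) (Fin 4) ℤ) (x : Fin 4 → ℤ) :
    toR (M *ᵥ x) = M.map (Int.cast : ℤ → ℝ) *ᵥ toR x := by
  funext i
  simp [toR, Matrix.mulVec, dotProduct]

theorem toR_add (x y : Fin 4 → ℤ) : toR (x + y) = toR x + toR y := by
  funext i
  simp [toR]

theorem toR_neg (x : Fin 4 → ℤ) : toR (-x) = -toR x := by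
  funext i
  simp [toR]

theorem QuatData.uvec_add (h l : Fin 4 → ℤ) : D.uvec (h + l) = D.uvec h + D.uvec l := by
  rw [QuatData.uvec, QuatData.uvec, QuatData.uvec, toR_add, Matrix.mulVec_add, smul_add]

theorem QuatData.uvec_neg (h : Fin 4 → ℤ) : D.uvec (-h) = -D.uvec h := by
  rw [QuatData.uvec, QuatData.uvec, toR_neg, Matrix.mulVec_neg, smul_neg]

theorem QuatData.uvec_A (x : Fin 4 → ℤ) : D.uvec (D.A *ᵥ x) = toR x := by
  have hp : (p : ℝ) ≠ 0 := D.p_pos.ne'
  rw [QuatData.uvec, toR_mulVec, Matrix.mulVec_mulVec]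
  have : D.BR * D.A.map (Int.cast : ℤ → ℝ) = (p : ℝ) • (1 : Matrix (Fin 4) (Fin 4) ℝ) :=
    D.BR_mul_AR
  rw [this, Matrix.smul_mulVec, Matrix.one_mulVec, smul_smul, inv_mul_cancel₀ hp, one_smul]

theorem QuatData.uvec_zero : D.uvec 0 = 0 := by
  have : toR (0 : Fin 4 → ℤ) = 0 := by funext i; simp [toR]
  rw [QuatData.uvec, this, Matrix.mulVec_zero, smul_zero]

/-- the bilinear form as a double sum -/
theorem QuatData.dot_AR (z w : Fin 4 → ℝ) :
    w ⬝ᵥ (D.AR *ᵥ z) = ∑ i, ∑ j, (D.A i j : ℝ) * w i * z j := by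
  simp only [dotProduct, Matrix.mulVec, QuatData.AR, Matrix.map_apply, Finset.mul_sum]
  refine Finset.sum_congr rfl fun i _ => Finset.sum_congr rfl fun j _ => ?_
  ring

theorem QuatData.quad_tri' (z : Fin 4 → ℝ) : quad 4 D.tri z = z ⬝ᵥ (D.AR *ᵥ z) := by
  rw [D.quad_tri, D.dot_AR]

theorem QuatData.dot_AR_symm (z w : Fin 4 → ℝ) : w ⬝ᵥ (D.AR *ᵥ z) = z ⬝ᵥ (D.AR *ᵥ w) := by
  rw [Matrix.dotProduct_mulVec, ← Matrix.mulVec_transpose, D.AR_symm, dotProduct_comm]

/-- the gradient is multiplication by the Gram matrix -/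
theorem QuatData.grad_tri (z : Fin 4 → ℝ) : grad 4 D.tri z = D.AR *ᵥ z := by
  have key : ∀ w : Fin 4 → ℝ, ∑ i, w i * grad 4 D.tri z i = w ⬝ᵥ (D.AR *ᵥ z) := by
    intro w
    have h1 := quad_add 4 D.tri z w
    rw [D.quad_tri', D.quad_tri', D.quad_tri'] at h1
    have h2 : (fun i => z i + w i) ⬝ᵥ (D.AR *ᵥ (fun i => z i + w i))
        = z ⬝ᵥ (D.AR *ᵥ z) + w ⬝ᵥ (D.AR *ᵥ w) + 2 * (w ⬝ᵥ (D.AR *ᵥ z)) := by
      have : (fun i => z i + w i) = z + w := rfl
      rw [this, Matrix.mulVec_add, add_dotProduct, dotProduct_add, dotProduct_add,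
        D.dot_AR_symm w z]
      ring
    rw [h2] at h1
    linarith
  funext i
  have := key (Pi.single i 1)
  simp only [Pi.single_apply, ite_mul, one_mul, zero_mul, Finset.sum_ite_eq', Finset.mem_univ,
    if_true] at this
  rw [this, single_dotProduct, one_mul]

theorem QuatData.dualQuad_A (z : Fin 4 → ℝ) : dualQuad 4 D.tri (D.AR *ᵥ z) = quad 4 D.tri z := by
  rw [← D.grad_tri, dualQuad_grad 4 D.tri D.tri_pos]

/-! ### Integrality -/

theorem even_quadform (M : Matrix (Fin 4) (Fin 4) ℤ) (hs : ∀ i j, M i j = M j i)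
    (he : ∀ i, Even (M i i)) (x : Fin 4 → ℤ) : Even (∑ i, ∑ j, M i j * x i * x j) := by
  obtain ⟨a0, h0⟩ := he 0
  obtain ⟨a1, h1⟩ := he 1
  obtain ⟨a2, h2⟩ := he 2
  obtain ⟨a3, h3⟩ := he 3
  simp only [Fin.sum_univ_four]
  rw [hs 1 0, hs 2 0, hs 3 0, hs 2 1, hs 3 1, hs 3 2, h0, h1, h2, h3]
  exact ⟨a0 * x 0 * x 0 + a1 * x 1 * x 1 + a2 * x 2 * x 2 + a3 * x 3 * x 3
    + M 0 1 * x 0 * x 1 + M 0 2 * x 0 * x 2 + M 0 3 * x 0 * x 3 + M 1 2 * x 1 * x 2
    + M 1 3 * x 1 * x 3 + M 2 3 * x 2 * x 3, by ring⟩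

theorem QuatData.two_mul_Q (x : Fin 4 → ℤ) : 2 * D.Q x = ∑ i, ∑ j, D.A i j * x i * x j := by
  rw [QuatData.Q]
  exact Int.mul_ediv_cancel' (even_iff_two_dvd.mp (even_quadform D.A D.A_symm D.A_even x))

/-- the integer `hᵀ B h / 2` -/
def QuatData.tZ (h : Fin 4 → ℤ) : ℤ := (∑ i, ∑ j, D.B i j * h i * h j) / 2

/-- the integer `hᵀ B l` -/
def QuatData.bZ (h l : Fin 4 → ℤ) : ℤ := ∑ i, ∑ j, D.B i j * h i * l j

theorem QuatData.two_mul_tZ (h : Fin 4 → ℤ) : 2 * D.tZ h = D.bZ h h := by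
  rw [QuatData.tZ, QuatData.bZ]
  exact Int.mul_ediv_cancel' (even_iff_two_dvd.mp (even_quadform D.B D.B_symm D.B_even h))

theorem QuatData.quad_toR (x : Fin 4 → ℤ) : quad 4 D.tri (toR x) = 2 * (D.Q x : ℝ) := by
  rw [D.quad_tri]
  have := D.two_mul_Q x
  have h2 : ((2 * D.Q x : ℤ) : ℝ) = 2 * (D.Q x : ℝ) := by push_cast; ring
  rw [← h2, this]
  push_cast
  rfl

end Fermat.Agent.S16.Theta
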