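/-
S16 lower bound, theta route (helper275): the theta functions with characteristics of an even
quaternary form of level `p` and discriminant `p²` (`QuatData p`), their `T`- and `S`-laws
(Gaussian inversion + splitting `ℤ⁴` into classes modulo `A ℤ⁴`), and the resulting
`QuatData.thetaSys : ThetaSys p D.G`; `q`-expansion of `Θ₀` with coefficients `D.rep n`
(`hasSum_thetaSys_zero`), `rep_zero`, `even_rep`.
-/
import Mathlib
import Fermat.Agent.S16.Theta.Quad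

set_option autoImplicit false

open Complex Real Matrix
open scoped UpperHalfPlane Manifold

namespace Fermat.Agent.S16.Theta


variable {p : ℕ} (D : QuatData p)

/-! ## Theta functions with characteristics -/

/-- the theta function with characteristic `h` (a representative of a class of `L#/L`) -/
noncomputable def QuatData.th (h : Fin 4 → ℤ) (τ : ℂ) : ℂ :=
  ∑' x : Fin 4 → ℤ, P 4 D.tri τ (D.uvec h) 0 x

theorem QuatData.summable_th (h : Fin 4 → ℤ) {τ : ℂ} (hτ : 0 < τ.im) :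
    Summable (P 4 D.tri τ (D.uvec h) 0) :=
  summable_P 4 D.tri D.tri_pos hτ _ _

theorem QuatData.th_add_A (h x0 : Fin 4 → ℤ) (τ : ℂ) : D.th (h + D.A *ᵥ x0) τ = D.th h τ := by
  rw [QuatData.th, QuatData.th, D.uvec_add, D.uvec_A]
  have : (D.uvec h + toR x0) = fun i => D.uvec h i + (x0 i : ℝ) := rfl
  rw [this]
  simp_rw [P_add_int]
  exact (Equiv.addRight x0).tsum_eq (P 4 D.tri τ (D.uvec h) 0)

theorem P_neg (n : ℕ) (D : Tri) (τ : ℂ) (u : Fin n → ℝ) (x : Fin n → ℤ) :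
    P n D τ (fun i => -u i) 0 x = P n D τ u 0 (-x) := by
  rw [P, P]
  have h1 : (fun i => ((x i : ℤ) : ℝ) + -u i) = fun i => -((((-x) i : ℤ) : ℝ) + u i) := by
    funext i
    simp only [Pi.neg_apply, Int.cast_neg]
    ring
  rw [h1, quad_neg]
  simp

theorem QuatData.th_neg (h : Fin 4 → ℤ) (τ : ℂ) : D.th (-h) τ = D.th h τ := by
  rw [QuatData.th, QuatData.th, D.uvec_neg]
  have : (-D.uvec h) = fun i => -D.uvec h i := rfl
  rw [this]
  simp_rw [P_neg]
  exact (Equiv.neg (Fin 4 → ℤ)).tsum_eq (P 4 D.tri τ (D.uvec h) 0)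

theorem QuatData.dot_BR (h l : Fin 4 → ℤ) : toR l ⬝ᵥ (D.BR *ᵥ toR h) = (D.bZ l h : ℝ) := by
  simp only [dotProduct, Matrix.mulVec, QuatData.BR, Matrix.map_apply, Finset.mul_sum, toR,
    QuatData.bZ]
  push_cast
  refine Finset.sum_congr rfl fun i _ => Finset.sum_congr rfl fun j _ => ?_
  ring

theorem QuatData.bZ_symm (h l : Fin 4 → ℤ) : D.bZ h l = D.bZ l h := by
  rw [QuatData.bZ, QuatData.bZ, Finset.sum_comm]
  refine Finset.sum_congr rfl fun i _ => Finset.sum_congr rfl fun j _ => ?_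
  rw [D.B_symm j i]
  ring

theorem QuatData.uvec_dot (h l : Fin 4 → ℤ) : D.uvec l ⬝ᵥ toR h = (D.bZ h l : ℝ) / p := by
  rw [QuatData.uvec, smul_dotProduct, dotProduct_comm, D.dot_BR, smul_eq_mul]
  field_simp

theorem toR_dot (x h : Fin 4 → ℤ) : toR x ⬝ᵥ toR h = ((∑ i, x i * h i : ℤ) : ℝ) := by
  simp [toR, dotProduct]

/-- the value of the quadratic form on a shifted lattice point -/
theorem QuatData.quad_shift (x h : Fin 4 → ℤ) :
    quad 4 D.tri (fun i => (x i : ℝ) + D.uvec h i)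
      = 2 * (D.Q x : ℝ) + 2 * ((∑ i, x i * h i : ℤ) : ℝ) + 2 * (D.tZ h : ℝ) / p := by
  have h0 : (fun i => (x i : ℝ) + D.uvec h i) = fun i => D.uvec h i + toR x i := by
    funext i
    simp only [toR]
    ring
  rw [h0, quad_add, D.grad_tri, D.AR_mulVec_uvec, D.quad_toR, D.quad_tri', D.AR_mulVec_uvec,
    D.uvec_dot]
  have h1 : ∑ i, toR x i * toR h i = ((∑ i, x i * h i : ℤ) : ℝ) := by
    rw [← toR_dot]
    rfl
  rw [h1]
  have h2 : (D.bZ h h : ℝ) = 2 * (D.tZ h : ℝ) := by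
    rw [← D.two_mul_tZ]
    push_cast
    ring
  rw [h2]
  ring

theorem P_add_one (n : ℕ) (D : Tri) (τ : ℂ) (u v : Fin n → ℝ) (x : Fin n → ℤ) :
    P n D (τ + 1) u v x
      = cexp (π * I * ((quad n D (fun i => (x i : ℝ) + u i) : ℝ) : ℂ)) * P n D τ u v x := by
  rw [P, P, ← Complex.exp_add]
  congr 1
  ring

theorem stdAddChar_int [NeZero p] (j : ℤ) :
    ZMod.stdAddChar ((j : ℤ) : ZMod p) = cexp (2 * π * I * (j : ℂ) / (p : ℂ)) :=
  ZMod.stdAddChar_coe j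

theorem cexp_int (n : ℤ) : cexp (2 * π * I * (n : ℂ)) = 1 := by
  have := Complex.exp_int_mul_two_pi_mul_I n
  rw [← this]
  congr 1
  ring

/-- the `T`-law -/
theorem QuatData.th_T [NeZero p] (h : Fin 4 → ℤ) (τ : ℂ) :
    D.th h (1 + τ) = ZMod.stdAddChar ((D.tZ h : ℤ) : ZMod p) * D.th h τ := by
  rw [QuatData.th, QuatData.th, ← tsum_mul_left, add_comm]
  refine tsum_congr fun x => ?_
  rw [P_add_one]
  congr 1
  rw [D.quad_shift, stdAddChar_int]
  have h1 : (π * I * ((2 * (D.Q x : ℝ) + 2 * ((∑ i, x i * h i : ℤ) : ℝ) + 2 * (D.tZ h : ℝ) / p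
      : ℝ) : ℂ)) = 2 * π * I * ((D.Q x + ∑ i, x i * h i : ℤ) : ℂ)
        + 2 * π * I * (D.tZ h : ℂ) / (p : ℂ) := by
    push_cast
    ring
  rw [h1, Complex.exp_add, cexp_int, one_mul]

/-- the dual summand at `y = A x + l` -/
theorem QuatData.Pd_class [NeZero p] (h l x : Fin 4 → ℤ) (τ : ℂ) :
    Pd 4 D.tri (-1 / τ) (D.uvec h) 0 (D.A *ᵥ x + l)
      = ZMod.stdAddChar ((D.bZ l h : ℤ) : ZMod p) * P 4 D.tri τ (D.uvec l) 0 x := by
  have hp : (p : ℂ) ≠ 0 := by exact_mod_cast D.p_ne_zero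
  have e1 : (fun i => (((D.A *ᵥ x + l) i : ℤ) : ℝ) - (0 : Fin 4 → ℝ) i)
      = D.AR *ᵥ (fun i => (x i : ℝ) + D.uvec l i) := by
    have : (fun i => (x i : ℝ) + D.uvec l i) = toR x + D.uvec l := rfl
    rw [this, Matrix.mulVec_add, D.AR_mulVec_uvec]
    have : (fun i => (((D.A *ᵥ x + l) i : ℤ) : ℝ) - (0 : Fin 4 → ℝ) i) = toR (D.A *ᵥ x + l) := by
      funext i
      simp [toR]
    rw [this, toR_add, toR_mulVec]
    rfl
  have e2 : (∑ i, (((D.A *ᵥ x + l) i : ℤ) : ℝ) * D.uvec h i : ℝ)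
      = ((∑ i, x i * h i : ℤ) : ℝ) + (D.bZ l h : ℝ) / p := by
    have : (∑ i, (((D.A *ᵥ x + l) i : ℤ) : ℝ) * D.uvec h i : ℝ)
        = toR (D.A *ᵥ x + l) ⬝ᵥ D.uvec h := rfl
    rw [this, toR_add, toR_mulVec, add_dotProduct]
    have h3 : (D.A.map (Int.cast : ℤ → ℝ) *ᵥ toR x) ⬝ᵥ D.uvec h = toR x ⬝ᵥ toR h := by
      rw [dotProduct_comm, show D.A.map (Int.cast : ℤ → ℝ) = D.AR from rfl,
        D.dot_AR_symm (toR x) (D.uvec h), D.AR_mulVec_uvec]
    rw [h3, toR_dot, dotProduct_comm, D.uvec_dot, D.bZ_symm]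
  rw [Pd, e1, D.dualQuad_A, e2, P, stdAddChar_int, ← Complex.exp_add]
  have : (∑ i, (0 : Fin 4 → ℝ) i * ((x i : ℝ) + D.uvec l i) : ℝ) = 0 := by simp
  rw [this]
  have e3 : -π * I / (-1 / τ) * ((quad 4 D.tri (fun i => (x i : ℝ) + D.uvec l i) : ℝ) : ℂ)
      + 2 * π * I * ((((∑ i, x i * h i : ℤ) : ℝ) + (D.bZ l h : ℝ) / p : ℝ) : ℂ)
      = 2 * π * I * ((∑ i, x i * h i : ℤ) : ℂ)
        + (2 * π * I * (D.bZ l h : ℂ) / (p : ℂ)
          + (π * I * τ * ((quad 4 D.tri (fun i => (x i : ℝ) + D.uvec l i) : ℝ) : ℂ)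
            + 2 * π * I * ((0 : ℝ) : ℂ))) := by
    push_cast
    field_simp
    ring
  rw [e3, Complex.exp_add, cexp_int, one_mul]




/-! ## The prefactor -/

theorem sqrt_cpow {w : ℂ} (hw : w ≠ 0) {d : ℝ} (hd : 0 < d) :
    (w * (d : ℂ)) ^ (1 / 2 : ℂ) = w ^ (1 / 2 : ℂ) * ((Real.sqrt d : ℝ) : ℂ) := by
  have hd0 : (d : ℂ) ≠ 0 := by exact_mod_cast hd.ne'
  rw [mul_comm w, Complex.cpow_def_of_ne_zero (mul_ne_zero hd0 hw), Complex.log_ofReal_mul hd hw,
    Complex.cpow_def_of_ne_zero hw, add_mul, Complex.exp_add, mul_comm]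
  congr 1
  rw [Real.sqrt_eq_rpow, Real.rpow_def_of_pos hd]
  push_cast
  rfl

theorem QuatData.pref_eq {σ : ℂ} (hσ : σ ≠ 0) :
    pref 4 D.tri σ = 1 / ((-I * σ) ^ 2 * (p : ℂ)) := by
  have hw : -I * σ ≠ 0 := mul_ne_zero (neg_ne_zero.mpr I_ne_zero) hσ
  have h0 : pref 4 D.tri σ = 1 / (-I * σ * D.d0) ^ (1 / 2 : ℂ) * (1 / (-I * σ * D.d1) ^ (1 / 2 : ℂ)
      * (1 / (-I * σ * D.d2) ^ (1 / 2 : ℂ) * (1 / (-I * σ * D.d3) ^ (1 / 2 : ℂ) * 1))) := rfl
  rw [h0, sqrt_cpow hw D.d0_pos, sqrt_cpow hw D.d1_pos, sqrt_cpow hw D.d2_pos,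
    sqrt_cpow hw D.d3_pos]
  have hsq : ((-I * σ) ^ (1 / 2 : ℂ)) ^ 2 = -I * σ := by
    have := Complex.cpow_nat_inv_pow (-I * σ) (two_ne_zero)
    rw [← this]
    congr 2
    norm_num
  have hs : Real.sqrt D.d0 * Real.sqrt D.d1 * Real.sqrt D.d2 * Real.sqrt D.d3 = (p : ℝ) := by
    rw [← Real.sqrt_mul D.d0_pos.le, ← Real.sqrt_mul (mul_pos D.d0_pos D.d1_pos).le,
      ← Real.sqrt_mul (mul_pos (mul_pos D.d0_pos D.d1_pos) D.d2_pos).le, D.d_prod,
      Real.sqrt_sq D.p_pos.le]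
  have hs' : ((Real.sqrt D.d0 : ℝ) : ℂ) * ((Real.sqrt D.d1 : ℝ) : ℂ) * ((Real.sqrt D.d2 : ℝ) : ℂ)
      * ((Real.sqrt D.d3 : ℝ) : ℂ) = (p : ℂ) := by
    rw [← Complex.ofReal_mul, ← Complex.ofReal_mul, ← Complex.ofReal_mul, hs]
    simp
  have hp : (p : ℂ) ≠ 0 := by exact_mod_cast D.p_ne_zero
  have hz : (-I * σ) ^ (1 / 2 : ℂ) ≠ 0 := by
    intro h
    rw [h] at hsq
    simp at hsq
    exact hσ hsq
  have hr0 : ((Real.sqrt D.d0 : ℝ) : ℂ) ≠ 0 := by
    exact_mod_cast (Real.sqrt_pos.mpr D.d0_pos).ne'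
  have hr1 : ((Real.sqrt D.d1 : ℝ) : ℂ) ≠ 0 := by
    exact_mod_cast (Real.sqrt_pos.mpr D.d1_pos).ne'
  have hr2 : ((Real.sqrt D.d2 : ℝ) : ℂ) ≠ 0 := by
    exact_mod_cast (Real.sqrt_pos.mpr D.d2_pos).ne'
  have hr3 : ((Real.sqrt D.d3 : ℝ) : ℂ) ≠ 0 := by
    exact_mod_cast (Real.sqrt_pos.mpr D.d3_pos).ne'
  rw [← hs']
  have hsq2 : (-I * σ) ^ 2 = (((-I * σ) ^ (1 / 2 : ℂ)) ^ 2) ^ 2 := by rw [hsq]
  rw [hsq2]
  field_simp

theorem QuatData.pref_S {τ : ℂ} (hτ : τ ≠ 0) :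
    pref 4 D.tri (-1 / τ) = -(τ ^ 2 / (p : ℂ)) := by
  have hp : (p : ℂ) ≠ 0 := by exact_mod_cast D.p_ne_zero
  have h1 : (-1 / τ) ≠ 0 := div_ne_zero (neg_ne_zero.mpr one_ne_zero) hτ
  rw [D.pref_eq h1]
  have : (-I * (-1 / τ)) ^ 2 = -(1 / τ ^ 2) := by
    field_simp
    rw [I_sq]
  rw [this]
  field_simp

/-! ## The discriminant group -/

/-- the lattice `A ℤ⁴` -/
def QuatData.L : AddSubgroup (Fin 4 → ℤ) := (D.A.mulVecLin).range.toAddSubgroup

theorem QuatData.mem_L {y : Fin 4 → ℤ} : y ∈ D.L ↔ ∃ x, D.A *ᵥ x = y := by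
  simp [QuatData.L]

/-- the discriminant group `ℤ⁴ / A ℤ⁴` -/
abbrev QuatData.G : Type := (Fin 4 → ℤ) ⧸ D.L

theorem QuatData.A_B_mulVec (y : Fin 4 → ℤ) : D.A *ᵥ (D.B *ᵥ y) = (p : ℤ) • y := by
  rw [Matrix.mulVec_mulVec, D.A_mul_B, Matrix.smul_mulVec, Matrix.one_mulVec]

theorem QuatData.B_A_mulVec (y : Fin 4 → ℤ) : D.B *ᵥ (D.A *ᵥ y) = (p : ℤ) • y := by
  rw [Matrix.mulVec_mulVec, D.B_mul_A, Matrix.smul_mulVec, Matrix.one_mulVec]

theorem QuatData.A_injective : Function.Injective (fun x : Fin 4 → ℤ => D.A *ᵥ x) := by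
  intro x y hxy
  have h := congrArg (fun z => D.B *ᵥ z) hxy
  simp only [D.B_A_mulVec] at h
  have hp : (p : ℤ) ≠ 0 := by exact_mod_cast D.p_ne_zero
  funext i
  have hi := congrFun h i
  simp only [Pi.smul_apply, smul_eq_mul] at hi
  exact mul_left_cancel₀ hp hi

instance QuatData.finiteIndex_L [NeZero p] : D.L.FiniteIndex := by
  let φ : (Fin 4 → ℤ) →+ (Fin 4 → ZMod p) := (Int.castAddHom (ZMod p)).compLeft (Fin 4)
  have hle : φ.ker ≤ D.L := by
    intro x hx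
    rw [AddMonoidHom.mem_ker] at hx
    have hx' : ∀ i, (p : ℤ) ∣ x i := by
      intro i
      have := congrFun hx i
      simp only [φ, AddMonoidHom.compLeft_apply, Function.comp_apply, Int.coe_castAddHom,
        Pi.zero_apply] at this
      exact (ZMod.intCast_zmod_eq_zero_iff_dvd (x i) p).mp this
    choose y hy using hx'
    rw [D.mem_L]
    refine ⟨D.B *ᵥ y, ?_⟩
    rw [D.A_B_mulVec]
    funext i
    simp [hy i]
  exact AddSubgroup.finiteIndex_of_le hle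

noncomputable instance QuatData.fintypeG [NeZero p] : Fintype D.G :=
  AddSubgroup.fintypeQuotientOfFiniteIndex

/-- a representative of a class -/
noncomputable def QuatData.rp (g : D.G) : Fin 4 → ℤ := Quotient.out g

theorem QuatData.mk_rp (g : D.G) : (QuotientAddGroup.mk (D.rp g) : D.G) = g :=
  QuotientAddGroup.out_eq' g

theorem QuatData.mk_eq_iff (h l : Fin 4 → ℤ) :
    (QuotientAddGroup.mk h : D.G) = QuotientAddGroup.mk l ↔ ∃ x, l = h + D.A *ᵥ x := by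
  rw [QuotientAddGroup.eq, D.mem_L]
  constructor
  · rintro ⟨x, hx⟩
    exact ⟨x, by rw [hx]; abel⟩
  · rintro ⟨x, hx⟩
    exact ⟨x, by rw [hx]; abel⟩

theorem QuatData.rp_mk (h : Fin 4 → ℤ) : ∃ x, D.rp (QuotientAddGroup.mk h : D.G) = h + D.A *ᵥ x :=
  (D.mk_eq_iff _ _).mp (D.mk_rp _).symm

/-- splitting `ℤ⁴` into classes modulo `A ℤ⁴` -/
noncomputable def QuatData.classEquiv : D.G × (Fin 4 → ℤ) ≃ (Fin 4 → ℤ) :=
  Equiv.ofBijective (fun q => D.A *ᵥ q.2 + D.rp q.1) (by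
    constructor
    · rintro ⟨g, x⟩ ⟨g', x'⟩ hq
      simp only at hq
      have hg : g = g' := by
        rw [← D.mk_rp g, ← D.mk_rp g', D.mk_eq_iff]
        refine ⟨x - x', ?_⟩
        rw [Matrix.mulVec_sub]
        have : D.rp g' = D.A *ᵥ x + D.rp g - D.A *ᵥ x' := by rw [hq]; abel
        rw [this]; abel
      subst hg
      have : D.A *ᵥ x = D.A *ᵥ x' := add_right_cancel hq
      rw [D.A_injective this]
    · intro y
      obtain ⟨x, hx⟩ := D.rp_mk y
      refine ⟨(QuotientAddGroup.mk y, -x), ?_⟩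
      simp only
      rw [hx, Matrix.mulVec_neg]
      abel)

theorem QuatData.classEquiv_apply (q : D.G × (Fin 4 → ℤ)) :
    D.classEquiv q = D.A *ᵥ q.2 + D.rp q.1 := rfl

theorem QuatData.tsum_classes [NeZero p] (F : (Fin 4 → ℤ) → ℂ) (hF : Summable F) :
    ∑' y, F y = ∑ g : D.G, ∑' x : Fin 4 → ℤ, F (D.A *ᵥ x + D.rp g) := by
  rw [← D.classEquiv.tsum_eq F]
  have hS : Summable (fun q : D.G × (Fin 4 → ℤ) => F (D.classEquiv q)) :=
    D.classEquiv.summable_iff.mpr hF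
  rw [hS.tsum_prod' (fun g => ?_), tsum_fintype]
  · rfl
  · have hinj : Function.Injective (fun x : Fin 4 → ℤ => D.classEquiv (g, x)) := by
      intro x x' h
      have := D.classEquiv.injective h
      exact (Prod.mk.inj this).2
    exact hF.comp_injective hinj

/-- the `S`-law for the theta functions with characteristics (as functions on `ℂ`) -/
theorem QuatData.th_S [NeZero p] (h : Fin 4 → ℤ) {τ : ℂ} (hτ : 0 < τ.im) :
    D.th h (-1 / τ) = -(τ ^ 2 / (p : ℂ)) *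
      ∑ g : D.G, ZMod.stdAddChar ((D.bZ (D.rp g) h : ℤ) : ZMod p) * D.th (D.rp g) τ := by
  have hτ0 : τ ≠ 0 := by
    rintro rfl
    simp at hτ
  have hτ' : 0 < (-1 / τ).im := im_neg_inv_pos hτ
  rw [QuatData.th, inversion 4 D.tri D.tri_pos hτ', D.pref_S hτ0,
    D.tsum_classes _ (summable_Pd 4 D.tri D.tri_pos hτ' _ _)]
  congr 1
  refine Finset.sum_congr rfl fun g _ => ?_
  simp only [D.Pd_class]
  rw [tsum_mul_left]
  rfl




/-! ## The finite quadratic module -/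

theorem QuatData.bZ_eq_dot (h l : Fin 4 → ℤ) : D.bZ h l = h ⬝ᵥ (D.B *ᵥ l) := by
  simp only [QuatData.bZ, dotProduct, Matrix.mulVec, Finset.mul_sum]
  refine Finset.sum_congr rfl fun i _ => Finset.sum_congr rfl fun j _ => ?_
  ring

theorem QuatData.bZ_add_left (h h' l : Fin 4 → ℤ) : D.bZ (h + h') l = D.bZ h l + D.bZ h' l := by
  rw [D.bZ_eq_dot, D.bZ_eq_dot, D.bZ_eq_dot, add_dotProduct]

theorem QuatData.bZ_add_right (h l l' : Fin 4 → ℤ) : D.bZ h (l + l') = D.bZ h l + D.bZ h l' := by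
  rw [D.bZ_symm, D.bZ_add_left, D.bZ_symm l, D.bZ_symm l']

theorem QuatData.bZ_A_right (h x : Fin 4 → ℤ) : D.bZ h (D.A *ᵥ x) = (p : ℤ) * (h ⬝ᵥ x) := by
  rw [D.bZ_eq_dot, D.B_A_mulVec, dotProduct_smul, smul_eq_mul]

theorem QuatData.bZ_neg_neg (h l : Fin 4 → ℤ) : D.bZ (-h) (-l) = D.bZ h l := by
  rw [D.bZ_eq_dot, D.bZ_eq_dot, Matrix.mulVec_neg, neg_dotProduct, dotProduct_neg, neg_neg]

theorem QuatData.tZ_add (h l : Fin 4 → ℤ) : D.tZ (h + l) = D.tZ h + D.tZ l + D.bZ h l := by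
  have h1 := D.two_mul_tZ (h + l)
  rw [D.bZ_add_left, D.bZ_add_right, D.bZ_add_right, ← D.two_mul_tZ h, ← D.two_mul_tZ l,
    D.bZ_symm l h] at h1
  linarith

theorem QuatData.tZ_neg (h : Fin 4 → ℤ) : D.tZ (-h) = D.tZ h := by
  have h1 := D.two_mul_tZ (-h)
  rw [D.bZ_neg_neg, ← D.two_mul_tZ h] at h1
  linarith

theorem QuatData.tZ_A (x : Fin 4 → ℤ) : D.tZ (D.A *ᵥ x) = (p : ℤ) * D.Q x := by
  have h1 := D.two_mul_tZ (D.A *ᵥ x)
  rw [D.bZ_A_right] at h1
  have h2 : (D.A *ᵥ x) ⬝ᵥ x = 2 * D.Q x := by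
    rw [D.two_mul_Q]
    simp only [dotProduct, Matrix.mulVec, Finset.sum_mul]
    refine Finset.sum_congr rfl fun i _ => Finset.sum_congr rfl fun j _ => ?_
    ring
  rw [h2] at h1
  linarith

/-- the quadratic form on representatives, modulo `p` -/
def QuatData.tM (h : Fin 4 → ℤ) : ZMod p := ((D.tZ h : ℤ) : ZMod p)

/-- the bilinear form on representatives, modulo `p` -/
def QuatData.bM (h l : Fin 4 → ℤ) : ZMod p := ((D.bZ h l : ℤ) : ZMod p)

theorem QuatData.bM_symm (h l : Fin 4 → ℤ) : D.bM h l = D.bM l h := by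
  rw [QuatData.bM, QuatData.bM, D.bZ_symm]

theorem QuatData.bM_add_left (h h' l : Fin 4 → ℤ) : D.bM (h + h') l = D.bM h l + D.bM h' l := by
  rw [QuatData.bM, QuatData.bM, QuatData.bM, D.bZ_add_left]
  push_cast
  rfl

theorem QuatData.bM_add_A_right (h l x : Fin 4 → ℤ) : D.bM h (l + D.A *ᵥ x) = D.bM h l := by
  rw [QuatData.bM, QuatData.bM, D.bZ_add_right, D.bZ_A_right]
  push_cast
  simp

theorem QuatData.bM_add_A_left (h l x : Fin 4 → ℤ) : D.bM (h + D.A *ᵥ x) l = D.bM h l := by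
  rw [D.bM_symm, D.bM_add_A_right, D.bM_symm]

theorem QuatData.tM_add (h l : Fin 4 → ℤ) : D.tM (h + l) = D.tM h + D.tM l + D.bM h l := by
  rw [QuatData.tM, QuatData.tM, QuatData.tM, QuatData.bM, D.tZ_add]
  push_cast
  rfl

theorem QuatData.tM_neg (h : Fin 4 → ℤ) : D.tM (-h) = D.tM h := by
  rw [QuatData.tM, QuatData.tM, D.tZ_neg]

theorem QuatData.tM_add_A (h x : Fin 4 → ℤ) : D.tM (h + D.A *ᵥ x) = D.tM h := by
  have h1 : D.tM (D.A *ᵥ x) = 0 := by
    rw [QuatData.tM, D.tZ_A]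
    push_cast
    simp
  have h2 : D.bM h (D.A *ᵥ x) = 0 := by
    have := D.bM_add_A_right h 0 x
    rw [zero_add] at this
    rw [this, QuatData.bM, D.bZ_eq_dot, Matrix.mulVec_zero, dotProduct_zero]
    simp
  rw [D.tM_add, h1, h2, add_zero, add_zero]

/-! ### representatives -/

theorem QuatData.rp_add (g g' : D.G) : ∃ x, D.rp (g + g') = D.rp g + D.rp g' + D.A *ᵥ x := by
  have : (QuotientAddGroup.mk (D.rp g + D.rp g') : D.G) = QuotientAddGroup.mk (D.rp (g + g')) := by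
    rw [QuotientAddGroup.mk_add, D.mk_rp, D.mk_rp, D.mk_rp]
  exact (D.mk_eq_iff _ _).mp this

theorem QuatData.rp_neg (g : D.G) : ∃ x, D.rp (-g) = -D.rp g + D.A *ᵥ x := by
  have : (QuotientAddGroup.mk (-D.rp g) : D.G) = QuotientAddGroup.mk (D.rp (-g)) := by
    rw [QuotientAddGroup.mk_neg, D.mk_rp, D.mk_rp]
  exact (D.mk_eq_iff _ _).mp this

theorem QuatData.rp_zero : ∃ x, D.rp (0 : D.G) = 0 + D.A *ᵥ x := by
  have : (QuotientAddGroup.mk (0 : Fin 4 → ℤ) : D.G) = QuotientAddGroup.mk (D.rp (0 : D.G)) := by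
    rw [D.mk_rp]
    rfl
  exact (D.mk_eq_iff _ _).mp this

theorem QuatData.nondeg (g : D.G) (hg : ∀ l : D.G, D.bM (D.rp g) (D.rp l) = 0) : g = 0 := by
  have hp : (p : ℤ) ≠ 0 := by exact_mod_cast D.p_ne_zero
  have h1 : ∀ j : Fin 4, (p : ℤ) ∣ (D.B *ᵥ D.rp g) j := by
    intro j
    obtain ⟨x, hx⟩ := D.rp_mk (Pi.single j 1)
    have := hg (QuotientAddGroup.mk (Pi.single j 1))
    rw [hx, D.bM_add_A_right, D.bM_symm, QuatData.bM, D.bZ_eq_dot, single_dotProduct, one_mul]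
      at this
    exact (ZMod.intCast_zmod_eq_zero_iff_dvd _ p).mp this
  choose y hy using h1
  have h2 : D.B *ᵥ D.rp g = (p : ℤ) • y := by
    funext j
    rw [hy j]
    simp
  have h3 : (p : ℤ) • D.rp g = (p : ℤ) • (D.A *ᵥ y) := by
    rw [← D.A_B_mulVec, h2, Matrix.mulVec_smul]
  have h4 : D.rp g = D.A *ᵥ y := by
    funext i
    have := congrFun h3 i
    simp only [Pi.smul_apply, smul_eq_mul] at this
    exact mul_left_cancel₀ hp this
  rw [← D.mk_rp g]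
  have : (QuotientAddGroup.mk (0 : Fin 4 → ℤ) : D.G) = QuotientAddGroup.mk (D.rp g) := by
    rw [D.mk_eq_iff]
    exact ⟨y, by rw [zero_add, h4]⟩
  rw [← this]
  rfl




/-! ## Analytic properties -/

theorem QuatData.norm_th_le (h : Fin 4 → ℤ) {τ : ℂ} {δ : ℝ} (hδ : 0 < δ) (hτ : δ ≤ τ.im) :
    ‖D.th h τ‖ ≤ ∑' x, ‖P 4 D.tri (δ * I) (D.uvec h) 0 x‖ := by
  have hτ' : 0 < τ.im := lt_of_lt_of_le hδ hτ
  have hδ' : 0 < ((δ : ℂ) * I).im := by simpa using hδ
  have h1 : Summable fun x => ‖P 4 D.tri τ (D.uvec h) 0 x‖ := (D.summable_th h hτ').norm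
  have h2 : Summable fun x => ‖P 4 D.tri (δ * I) (D.uvec h) 0 x‖ := (D.summable_th h hδ').norm
  refine (norm_tsum_le_tsum_norm h1).trans (h1.tsum_le_tsum (fun x => ?_) h2)
  exact norm_P_le 4 D.tri D.tri_pos (by simpa using hτ) _ _ _ _ rfl x

theorem differentiable_P (n : ℕ) (T : Tri) (u v : Fin n → ℝ) (x : Fin n → ℤ) :
    Differentiable ℂ (fun w : ℂ => P n T w u v x) := by
  unfold P
  fun_prop

theorem QuatData.differentiableOn_th (h : Fin 4 → ℤ) :
    DifferentiableOn ℂ (D.th h) {z : ℂ | 0 < z.im} := by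
  intro z hz
  have hz' : 0 < z.im := hz
  have hδ : 0 < z.im / 2 := by positivity
  have hδ' : 0 < (((z.im / 2 : ℝ) : ℂ) * I).im := by simpa using hδ
  have hU : IsOpen {w : ℂ | z.im / 2 < w.im} := isOpen_lt continuous_const Complex.continuous_im
  have hd : DifferentiableOn ℂ (fun w => ∑' x, P 4 D.tri w (D.uvec h) 0 x)
      {w : ℂ | z.im / 2 < w.im} := by
    refine differentiableOn_tsum_of_summable_norm
      (u := fun x => ‖P 4 D.tri (((z.im / 2 : ℝ) : ℂ) * I) (D.uvec h) 0 x‖)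
      (D.summable_th h hδ').norm (fun x => (differentiable_P 4 D.tri _ _ x).differentiableOn) hU ?_
    intro x w hw
    have hw' : z.im / 2 < w.im := hw
    exact norm_P_le 4 D.tri D.tri_pos (by simpa using hw'.le) _ _ _ _ rfl x
  have hzU : z ∈ {w : ℂ | z.im / 2 < w.im} := by
    show z.im / 2 < z.im
    linarith
  exact (hd.differentiableAt (hU.mem_nhds hzU)).differentiableWithinAt

theorem QuatData.mdiff_th (h : Fin 4 → ℤ) : MDiff (fun τ : ℍ => D.th h (τ : ℂ)) := by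
  rw [UpperHalfPlane.mdifferentiable_iff]
  refine (D.differentiableOn_th h).congr fun z hz => ?_
  have hz' : 0 < z.im := hz
  simp only [Function.comp_apply]
  rw [UpperHalfPlane.ofComplex_apply_of_im_pos hz']

theorem QuatData.bdd_th (h : Fin 4 → ℤ) : UpperHalfPlane.IsBoundedAtImInfty (fun τ : ℍ => D.th h (τ : ℂ)) := by
  rw [UpperHalfPlane.isBoundedAtImInfty_iff]
  refine ⟨∑' x, ‖P 4 D.tri (((1 : ℝ) : ℂ) * I) (D.uvec h) 0 x‖, 1, fun z hz => ?_⟩
  exact D.norm_th_le h one_pos hz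

theorem QuatData.th_I_ne_zero (h : Fin 4 → ℤ) : D.th h I ≠ 0 := by
  have hI : 0 < (I : ℂ).im := by simp
  have h1 : ∀ x, P 4 D.tri I (D.uvec h) 0 x = ((‖P 4 D.tri I (D.uvec h) 0 x‖ : ℝ) : ℂ) := by
    intro x
    rw [norm_P, P, Complex.ofReal_exp]
    congr 1
    simp only [Pi.zero_apply, zero_mul, Finset.sum_const_zero, I_im]
    push_cast
    ring_nf
    rw [I_sq]
    ring
  have hs : Summable fun x => ‖P 4 D.tri I (D.uvec h) 0 x‖ := (D.summable_th h hI).norm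
  have h2 : D.th h I = ((∑' x, ‖P 4 D.tri I (D.uvec h) 0 x‖ : ℝ) : ℂ) := by
    rw [QuatData.th, Complex.ofReal_tsum]
    exact tsum_congr h1
  rw [h2]
  have hpos : 0 < ∑' x, ‖P 4 D.tri I (D.uvec h) 0 x‖ := by
    refine hs.tsum_pos (fun x => norm_nonneg _) 0 ?_
    rw [norm_P]
    exact Real.exp_pos _
  exact_mod_cast hpos.ne'

/-! ## The theta system of a `QuatData` -/

theorem QuatData.th_congr {h l : Fin 4 → ℤ} (hl : ∃ x, l = h + D.A *ᵥ x) (τ : ℂ) :
    D.th l τ = D.th h τ := by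
  obtain ⟨x, rfl⟩ := hl
  exact D.th_add_A h x τ

/-- **The theta system attached to an even quaternary form of level `p` and discriminant `p²`.** -/
noncomputable def QuatData.thetaSys [NeZero p] : ThetaSys p D.G where
  Θ := fun g τ => D.th (D.rp g) (τ : ℂ)
  t := fun g => D.tM (D.rp g)
  b := fun g l => D.bM (D.rp g) (D.rp l)
  b_add_left := by
    intro h h' l
    obtain ⟨x, hx⟩ := D.rp_add h h'
    rw [hx, D.bM_add_A_left, D.bM_add_left]
  b_symm := fun h l => D.bM_symm _ _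
  t_add := by
    intro h l
    obtain ⟨x, hx⟩ := D.rp_add h l
    rw [hx, D.tM_add_A, D.tM_add]
  t_neg := by
    intro h
    obtain ⟨x, hx⟩ := D.rp_neg h
    rw [hx, D.tM_add_A, D.tM_neg]
  nondeg := D.nondeg
  Θ_neg := by
    intro h τ
    obtain ⟨x, hx⟩ := D.rp_neg h
    rw [hx, D.th_add_A, D.th_neg]
  T_law := by
    intro h τ
    have : (((1 : ℝ) +ᵥ τ : ℍ) : ℂ) = 1 + (τ : ℂ) := by
      rw [UpperHalfPlane.coe_vadd]
      simp
    rw [this, D.th_T]
    rfl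
  S_law := by
    intro h τ
    have hS : ((ModularGroup.S • τ : ℍ) : ℂ) = -1 / (τ : ℂ) := by
      rw [UpperHalfPlane.modular_S_smul]
      show (-(τ : ℂ))⁻¹ = -1 / (τ : ℂ)
      rw [inv_neg, neg_div, one_div]
    rw [hS, D.th_S (D.rp h) τ.im_pos]
    congr 1
    refine Finset.sum_congr rfl fun g _ => ?_
    rw [QuatData.bM, D.bZ_symm]
  holo := D.mdiff_th _
  bdd := fun h => D.bdd_th _
  Θ_zero_ne := ⟨UpperHalfPlane.I, D.th_I_ne_zero _⟩

theorem QuatData.thetaSys_zero [NeZero p] (τ : ℍ) : D.thetaSys.Θ 0 τ = D.th 0 (τ : ℂ) :=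
  D.th_congr D.rp_zero τ




/-! ## The `q`-expansion of the theta series -/

theorem QuatData.Q_nonneg (x : Fin 4 → ℤ) : 0 ≤ D.Q x := by
  have h1 := D.quad_toR x
  have h2 := quad_nonneg 4 D.tri D.tri_pos (toR x)
  rw [h1] at h2
  have : (0 : ℝ) ≤ (D.Q x : ℝ) := by linarith
  exact_mod_cast this

theorem QuatData.Q_eq_zero {x : Fin 4 → ℤ} (hx : D.Q x = 0) : x = 0 := by
  have h1 := D.quad_toR x
  rw [hx] at h1
  simp only [Int.cast_zero, mul_zero] at h1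
  have h2 := quad_eq_zero 4 D.tri D.tri_pos (toR x) h1
  funext i
  have := congrFun h2 i
  simp only [toR, Pi.zero_apply] at this
  exact_mod_cast this

theorem QuatData.Q_neg (x : Fin 4 → ℤ) : D.Q (-x) = D.Q x := by
  rw [QuatData.Q, QuatData.Q]
  congr 1
  refine Finset.sum_congr rfl fun i _ => Finset.sum_congr rfl fun j _ => ?_
  simp only [Pi.neg_apply]
  ring

theorem QuatData.Q_zero : D.Q 0 = 0 := by
  simp [QuatData.Q]

theorem QuatData.P_zero_eq (τ : ℂ) (x : Fin 4 → ℤ) :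
    P 4 D.tri τ (D.uvec 0) 0 x = cexp (2 * π * I * τ) ^ (D.Q x).toNat := by
  rw [P, D.uvec_zero]
  have h1 : (fun i => (x i : ℝ) + (0 : Fin 4 → ℝ) i) = toR x := by
    funext i
    simp [toR]
  rw [h1, D.quad_toR, ← Complex.exp_nat_mul]
  congr 1
  have h2 : (((D.Q x).toNat : ℕ) : ℂ) = ((D.Q x : ℤ) : ℂ) := by
    have := Int.toNat_of_nonneg (D.Q_nonneg x)
    exact_mod_cast congrArg (fun z : ℤ => (z : ℂ)) this
  rw [h2]
  simp only [Pi.zero_apply, zero_mul, Finset.sum_const_zero]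
  push_cast
  ring

theorem hasSum_fiberwise_pow {ι : Type} (N : ι → ℕ) (q : ℂ) (hq0 : q ≠ 0) {S : ℂ}
    (hF : HasSum (fun x : ι => q ^ N x) S) :
    HasSum (fun n : ℕ => (Nat.card {x : ι // N x = n} : ℂ) * q ^ n) S := by
  have hS : Summable (fun x : ι => q ^ N x) := hF.summable
  have hfin : ∀ n : ℕ, Finite {x : ι // N x = n} := by
    intro n
    by_contra hinf
    rw [not_finite_iff_infinite] at hinf
    have h1 : Summable (fun c : {x : ι // N x = n} => q ^ N c.1) :=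
      hS.comp_injective Subtype.val_injective
    have h2 : Summable (fun _ : {x : ι // N x = n} => q ^ n) :=
      h1.congr fun c => by rw [c.2]
    rw [summable_const_iff] at h2
    exact pow_ne_zero n hq0 h2
  have hF' : HasSum (fun s : (Σ n : ℕ, {x : ι // N x = n}) =>
      q ^ N (Equiv.sigmaFiberEquiv N s)) S :=
    (Equiv.sigmaFiberEquiv N).hasSum_iff.mpr hF
  have hfib : ∀ n : ℕ, HasSum (fun c : {x : ι // N x = n} =>
      q ^ N (Equiv.sigmaFiberEquiv N ⟨n, c⟩)) ((Nat.card {x : ι // N x = n} : ℂ) * q ^ n) := by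
    intro n
    have := hfin n
    have : Fintype {x : ι // N x = n} := Fintype.ofFinite _
    have h1 : ∀ c : {x : ι // N x = n}, q ^ N (Equiv.sigmaFiberEquiv N ⟨n, c⟩) = q ^ n := by
      intro c
      rw [Equiv.sigmaFiberEquiv_apply]
      simp only
      rw [c.2]
    have h2 : (Nat.card {x : ι // N x = n} : ℂ) * q ^ n = ∑ _c : {x : ι // N x = n}, q ^ n := by
      rw [Finset.sum_const, Finset.card_univ, nsmul_eq_mul, Nat.card_eq_fintype_card]
    rw [h2, funext h1]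
    exact hasSum_fintype _
  exact hF'.sigma hfib

theorem QuatData.toNat_Q_eq_iff (x : Fin 4 → ℤ) (n : ℕ) : (D.Q x).toNat = n ↔ D.Q x = (n : ℤ) := by
  constructor
  · intro h
    rw [← h]
    exact (Int.toNat_of_nonneg (D.Q_nonneg x)).symm
  · intro h
    rw [h]
    simp

theorem QuatData.hasSum_th_zero {τ : ℂ} (hτ : 0 < τ.im) :
    HasSum (fun n : ℕ => (D.rep n : ℂ) * cexp (2 * π * I * τ) ^ n) (D.th 0 τ) := by
  have hS : Summable (fun x : Fin 4 → ℤ => cexp (2 * π * I * τ) ^ (D.Q x).toNat) := by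
    have := D.summable_th 0 hτ
    refine this.congr fun x => ?_
    rw [D.P_zero_eq]
  have hF : HasSum (fun x : Fin 4 → ℤ => cexp (2 * π * I * τ) ^ (D.Q x).toNat) (D.th 0 τ) := by
    have := hS.hasSum
    have e : ∑' x : Fin 4 → ℤ, cexp (2 * π * I * τ) ^ (D.Q x).toNat = D.th 0 τ := by
      rw [QuatData.th]
      refine tsum_congr fun x => ?_
      rw [D.P_zero_eq]
    rwa [e] at this
  have key := hasSum_fiberwise_pow (fun x : Fin 4 → ℤ => (D.Q x).toNat) (cexp (2 * π * I * τ))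
    (Complex.exp_ne_zero _) hF
  have e : (fun n : ℕ => (D.rep n : ℂ) * cexp (2 * π * I * τ) ^ n)
      = fun n : ℕ => (Nat.card {x : Fin 4 → ℤ // (D.Q x).toNat = n} : ℂ)
          * cexp (2 * π * I * τ) ^ n := by
    funext n
    congr 2
    rw [QuatData.rep]
    exact Nat.card_congr (Equiv.subtypeEquivRight fun x => (D.toNat_Q_eq_iff x n).symm)
  rw [e]
  exact key

theorem QuatData.rep_zero : D.rep 0 = 1 := by
  rw [QuatData.rep, Nat.card_eq_one_iff_unique]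
  constructor
  · constructor
    rintro ⟨x, hx⟩ ⟨y, hy⟩
    have hx' : D.Q x = 0 := by exact_mod_cast hx
    have hy' : D.Q y = 0 := by exact_mod_cast hy
    rw [Subtype.mk.injEq, D.Q_eq_zero hx', D.Q_eq_zero hy']
  · exact ⟨⟨0, by simp [D.Q_zero]⟩⟩

theorem QuatData.finite_rep (n : ℕ) : Finite {x : Fin 4 → ℤ // D.Q x = (n : ℤ)} := by
  by_contra hinf
  rw [not_finite_iff_infinite] at hinf
  have hI : 0 < (I : ℂ).im := by simp
  have hS : Summable (fun x : Fin 4 → ℤ => cexp (2 * π * I * I) ^ (D.Q x).toNat) := by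
    have := D.summable_th 0 hI
    refine this.congr fun x => ?_
    rw [D.P_zero_eq]
  have h1 : Summable (fun c : {x : Fin 4 → ℤ // D.Q x = (n : ℤ)} =>
      cexp (2 * π * I * I) ^ (D.Q c.1).toNat) :=
    hS.comp_injective Subtype.val_injective
  have h2 : Summable (fun _ : {x : Fin 4 → ℤ // D.Q x = (n : ℤ)} => cexp (2 * π * I * I) ^ n) :=
    h1.congr fun c => by rw [c.2]; simp
  rw [summable_const_iff] at h2
  exact pow_ne_zero n (Complex.exp_ne_zero _) h2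

theorem QuatData.even_rep {n : ℕ} (hn : 1 ≤ n) : Even (D.rep n) := by
  have := D.finite_rep n
  have : Fintype {x : Fin 4 → ℤ // D.Q x = (n : ℤ)} := Fintype.ofFinite _
  rw [QuatData.rep, Nat.card_eq_fintype_card, ← Finset.card_univ]
  have key : ∑ _x : {x : Fin 4 → ℤ // D.Q x = (n : ℤ)}, (1 : ZMod 2) = 0 := by
    refine Finset.sum_involution (fun x _ => ⟨-x.1, by rw [D.Q_neg]; exact x.2⟩) ?_ ?_ ?_ ?_
    · intro a _
      decide
    · intro a _ _ h
      have h1 : -a.1 = a.1 := congrArg Subtype.val h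
      have h2 : a.1 = 0 := by
        funext i
        have := congrFun h1 i
        simp only [Pi.neg_apply] at this
        simp only [Pi.zero_apply]
        omega
      have h3 := a.2
      rw [h2, D.Q_zero] at h3
      have : (n : ℤ) = 0 := h3.symm
      omega
    · intro a _
      exact Finset.mem_univ _
    · intro a _
      apply Subtype.ext
      simp
  rw [Finset.sum_const, nsmul_eq_mul, mul_one] at key
  exact (ZMod.natCast_eq_zero_iff_even).mp key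


/-- the `q`-expansion of the theta series `Θ₀`, in the form required by
`ModularFormClass.qExpansion_coeff_unique`. -/
theorem QuatData.hasSum_thetaSys_zero [NeZero p] (τ : ℍ) :
    HasSum (fun n : ℕ => (D.rep n : ℂ) • Function.Periodic.qParam (1 : ℝ) (τ : ℂ) ^ n)
      (D.thetaSys.Θ 0 τ) := by
  rw [D.thetaSys_zero]
  have key := D.hasSum_th_zero τ.im_pos
  have e : (fun n : ℕ => (D.rep n : ℂ) • Function.Periodic.qParam (1 : ℝ) (τ : ℂ) ^ n)
      = fun n : ℕ => (D.rep n : ℂ) * cexp (2 * π * I * (τ : ℂ)) ^ n := by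
    funext n
    rw [smul_eq_mul, Function.Periodic.qParam]
    simp
  rw [e]
  exact key

end Fermat.Agent.S16.Theta
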