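/-
S16 lower bound, theta route (helper263): the ABSTRACT FINITE part.

From a theta system `Th : ThetaSys p G` (`p` prime) we prove that `Th.Θ 0` is a modular form
of weight `2` on `Γ₀(p)`:

* Milgram's formula `∑_h e(t h) = -p` from `(S T)³ = -1`, and `∑_h e(j t h) = -p` for `j ≠ 0`
  (cyclotomic minimal polynomial);
* `Θ₀ ∣ S T^j S = Θ₀ ∣ S T^k` for `j k = -1` (complete the square);
* induction on words in `S`, `T`: `Θ₀ ∣ γ = Θ₀` if `p ∣ c`, and `Θ₀ ∣ γ = Θ₀ ∣ S T^(d/c)` else.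
-/
import Fermat.Agent.S16.Theta.Defs

set_option autoImplicit false

namespace Fermat.Agent.S16.Theta

open UpperHalfPlane ModularForm CongruenceSubgroup ModularGroup
open scoped Manifold MatrixGroups ModularForm

namespace ThetaSys

variable {p : ℕ} [Fact p.Prime] {G : Type} [AddCommGroup G] [Fintype G] (Th : ThetaSys p G)

/-! ### Algebra of the quadratic form -/

lemma b_zero_left (l : G) : Th.b 0 l = 0 := by
  have h := Th.b_add_left 0 0 l
  rw [add_zero] at h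
  exact left_eq_add.mp h

lemma b_add_right (h l l' : G) : Th.b h (l + l') = Th.b h l + Th.b h l' := by
  rw [Th.b_symm, Th.b_add_left, Th.b_symm l, Th.b_symm l']

lemma t_zero : Th.t 0 = 0 := by
  have h := Th.t_add 0 0
  rw [add_zero, Th.b_zero_left, add_zero] at h
  exact left_eq_add.mp h

lemma b_neg_left (h l : G) : Th.b (-h) l = -Th.b h l := by
  have h1 := Th.b_add_left h (-h) l
  rw [add_neg_cancel, Th.b_zero_left] at h1
  linear_combination -h1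

lemma b_neg_right (h l : G) : Th.b h (-l) = -Th.b h l := by
  rw [Th.b_symm, Th.b_neg_left, Th.b_symm]

lemma b_self (h : G) : Th.b h h = 2 * Th.t h := by
  have h1 := Th.t_add h (-h)
  rw [add_neg_cancel, Th.t_zero, Th.t_neg, Th.b_neg_right] at h1
  linear_combination h1

lemma b_nsmul_left (n : ℕ) (h l : G) : Th.b (n • h) l = n * Th.b h l := by
  induction n with
  | zero => simp [Th.b_zero_left]
  | succ n ih => rw [succ_nsmul, Th.b_add_left, ih]; push_cast; ring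

lemma t_nsmul (n : ℕ) (h : G) : Th.t (n • h) = (n : ZMod p) ^ 2 * Th.t h := by
  induction n with
  | zero => simp [Th.t_zero]
  | succ n ih =>
    rw [succ_nsmul, Th.t_add, ih, Th.b_nsmul_left, Th.b_self]; push_cast; ring

/-- completing the square -/
lemma square_completion (j k : ZMod p) (hjk : j * k = 1) (m l : G) :
    j * Th.t (l - k.val • m) + Th.b (l - k.val • m) m = j * Th.t l - k * Th.t m := by
  have hk : ((k.val : ℕ) : ZMod p) = k := ZMod.natCast_zmod_val k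
  rw [sub_eq_add_neg, Th.t_add, Th.t_neg, Th.b_neg_right, Th.b_add_left, Th.b_neg_left,
    Th.t_nsmul, Th.b_symm l, Th.b_nsmul_left, Th.b_nsmul_left, Th.b_self, hk, Th.b_symm m l]
  linear_combination (k * Th.t m - Th.b l m) * hjk

/-- the Gauss sums of the quadratic form -/
noncomputable def gs (j : ZMod p) : ℂ := ∑ l, ZMod.stdAddChar (j * Th.t l)

lemma inner_sum (j k : ZMod p) (hjk : j * k = 1) (m : G) :
    ∑ l, ZMod.stdAddChar (j * Th.t l) * ZMod.stdAddChar (Th.b l m)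
      = ZMod.stdAddChar (-k * Th.t m) * Th.gs j := by
  rw [gs, Finset.mul_sum, ← (Equiv.subRight (k.val • m)).sum_comp]
  refine Finset.sum_congr rfl fun l _ => ?_
  rw [Equiv.subRight_apply, ← AddChar.map_add_eq_mul, ← AddChar.map_add_eq_mul,
    Th.square_completion j k hjk]
  congr 1
  ring

/-! ### The slash action on the family -/

lemma slash_T (h : G) :
    Th.Θ h ∣[(2 : ℤ)] T = ZMod.stdAddChar (Th.t h) • Th.Θ h := by
  ext τ
  rw [SL_slash_apply, modular_T_smul, Th.T_law]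
  simp [denom_apply, ModularGroup.coe_T]

lemma slash_S (h : G) :
    Th.Θ h ∣[(2 : ℤ)] S = (-(1 / (p : ℂ))) • ∑ l, ZMod.stdAddChar (Th.b h l) • Th.Θ l := by
  ext τ
  have hτ : (τ : ℂ) ≠ 0 := ne_zero τ
  have hp : (p : ℂ) ≠ 0 := Nat.cast_ne_zero.mpr (Fact.out : p.Prime).ne_zero
  rw [SL_slash_apply, Th.S_law, ModularGroup.denom_S]
  simp only [Pi.smul_apply, Finset.sum_apply, smul_eq_mul]
  rw [zpow_neg]
  field_simp

lemma slash_neg_one (f : ℍ → ℂ) : f ∣[(2 : ℤ)] (-1 : SL(2, ℤ)) = f := by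
  ext τ
  rw [SL_slash_apply, ModularGroup.SL_neg_smul, one_smul, ModularGroup.denom_apply]
  simp

lemma S_mul_S : (S * S : SL(2, ℤ)) = -1 := by
  ext i j
  simpa using congrFun (congrFun ModularGroup.S_mul_S_eq i) j

lemma slash_S_S (f : ℍ → ℂ) : (f ∣[(2 : ℤ)] S) ∣[(2 : ℤ)] S = f := by
  rw [← SlashAction.slash_mul, S_mul_S, slash_neg_one]

lemma slash_S_inv (f : ℍ → ℂ) : f ∣[(2 : ℤ)] S⁻¹ = f ∣[(2 : ℤ)] S := by
  have h : (S⁻¹ : SL(2, ℤ)) = S * (-1) := by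
    apply inv_eq_of_mul_eq_one_right
    rw [← mul_assoc, S_mul_S, neg_mul_neg, one_mul]
  rw [h, SlashAction.slash_mul, slash_neg_one]

lemma slash_T_inv (h : G) :
    Th.Θ h ∣[(2 : ℤ)] T⁻¹ = ZMod.stdAddChar (-Th.t h) • Th.Θ h := by
  have h1 : (Th.Θ h ∣[(2 : ℤ)] T) ∣[(2 : ℤ)] T⁻¹ = Th.Θ h := by
    rw [← SlashAction.slash_mul, mul_inv_cancel, SlashAction.slash_one]
  rw [Th.slash_T, SL_smul_slash] at h1
  have h2 : ZMod.stdAddChar (-Th.t h) * ZMod.stdAddChar (Th.t h) = (1 : ℂ) := by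
    rw [← AddChar.map_add_eq_mul, neg_add_cancel, AddChar.map_zero_eq_one]
  calc Th.Θ h ∣[(2 : ℤ)] T⁻¹
      = (ZMod.stdAddChar (-Th.t h) * ZMod.stdAddChar (Th.t h)) • (Th.Θ h ∣[(2 : ℤ)] T⁻¹) := by
        rw [h2, one_smul]
    _ = ZMod.stdAddChar (-Th.t h) • Th.Θ h := by rw [mul_smul, h1]

/-- `Ψ j = Θ₀ ∣ S T^j = -(1/p) ∑_l e(j t(l)) Θ_l`. -/
noncomputable def Psi (j : ZMod p) : ℍ → ℂ :=
  (-(1 / (p : ℂ))) • ∑ l, ZMod.stdAddChar (j * Th.t l) • Th.Θ l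

lemma Theta0_slash_T : Th.Θ 0 ∣[(2 : ℤ)] T = Th.Θ 0 := by
  rw [Th.slash_T, Th.t_zero, AddChar.map_zero_eq_one, one_smul]

lemma Theta0_slash_T_inv : Th.Θ 0 ∣[(2 : ℤ)] T⁻¹ = Th.Θ 0 := by
  rw [Th.slash_T_inv, Th.t_zero, neg_zero, AddChar.map_zero_eq_one, one_smul]

lemma Theta0_slash_S : Th.Θ 0 ∣[(2 : ℤ)] S = Th.Psi 0 := by
  rw [Th.slash_S, Psi]
  congr 1
  refine Finset.sum_congr rfl fun l _ => ?_
  rw [Th.b_zero_left, zero_mul]

lemma Psi0_slash_S : Th.Psi 0 ∣[(2 : ℤ)] S = Th.Θ 0 := by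
  rw [← Th.Theta0_slash_S, slash_S_S]

lemma Psi_slash_T (j : ZMod p) : Th.Psi j ∣[(2 : ℤ)] T = Th.Psi (j + 1) := by
  rw [Psi, Psi, SL_smul_slash, SlashAction.sum_slash]
  congr 1
  refine Finset.sum_congr rfl fun l _ => ?_
  rw [SL_smul_slash, Th.slash_T, smul_smul, ← AddChar.map_add_eq_mul]
  congr 2
  ring

lemma Psi_slash_T_inv (j : ZMod p) : Th.Psi j ∣[(2 : ℤ)] T⁻¹ = Th.Psi (j - 1) := by
  rw [Psi, Psi, SL_smul_slash, SlashAction.sum_slash]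
  congr 1
  refine Finset.sum_congr rfl fun l _ => ?_
  rw [SL_smul_slash, Th.slash_T_inv, smul_smul, ← AddChar.map_add_eq_mul]
  congr 2
  ring

lemma Psi_slash_S (j : ZMod p) (hj : j ≠ 0) :
    Th.Psi j ∣[(2 : ℤ)] S = (-(Th.gs j) / (p : ℂ)) • Th.Psi (-j⁻¹) := by
  have hjk : j * j⁻¹ = 1 := mul_inv_cancel₀ hj
  rw [Psi, Psi, SL_smul_slash, SlashAction.sum_slash]
  simp only [SL_smul_slash, Th.slash_S]
  ext τ
  simp only [Pi.smul_apply, Finset.sum_apply, smul_eq_mul, Finset.mul_sum]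
  rw [Finset.sum_comm]
  have key : ∀ m : G, ∑ l, -(1 / (p : ℂ)) * (ZMod.stdAddChar (j * Th.t l) *
      (-(1 / (p : ℂ)) * (ZMod.stdAddChar (Th.b l m) * Th.Θ m τ)))
      = -Th.gs j / (p : ℂ) * (-(1 / (p : ℂ)) * (ZMod.stdAddChar (-j⁻¹ * Th.t m) * Th.Θ m τ)) := by
    intro m
    have h1 := Th.inner_sum j j⁻¹ hjk m
    calc ∑ l, -(1 / (p : ℂ)) * (ZMod.stdAddChar (j * Th.t l) *
          (-(1 / (p : ℂ)) * (ZMod.stdAddChar (Th.b l m) * Th.Θ m τ)))
        = (1 / (p : ℂ)) ^ 2 * Th.Θ m τ *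
            ∑ l, ZMod.stdAddChar (j * Th.t l) * ZMod.stdAddChar (Th.b l m) := by
          rw [Finset.mul_sum]
          refine Finset.sum_congr rfl fun l _ => ?_
          ring
      _ = _ := by rw [h1]; ring
  exact Finset.sum_congr rfl fun m _ => key m

/-! ### Milgram's formula and the Gauss sums -/

lemma STSTST : (S * T * S * T * S * T : SL(2, ℤ)) = -1 := by
  ext i j
  fin_cases i <;> fin_cases j <;>
    simp [ModularGroup.coe_S, ModularGroup.coe_T, Matrix.mul_apply, Fin.sum_univ_two]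

/-- Milgram's formula, forced by `(S T)³ = -1`. -/
lemma gs_one : Th.gs 1 = -(p : ℂ) := by
  have hp : (p : ℂ) ≠ 0 := Nat.cast_ne_zero.mpr (Fact.out : p.Prime).ne_zero
  have h : Th.Θ 0 ∣[(2 : ℤ)] (S * T * S * T * S * T) = (-(Th.gs 1) / (p : ℂ)) • Th.Θ 0 := by
    simp only [SlashAction.slash_mul]
    rw [Th.Theta0_slash_S, Th.Psi_slash_T, zero_add, Th.Psi_slash_S 1 one_ne_zero, SL_smul_slash,
      Th.Psi_slash_T, inv_one, neg_add_cancel, SL_smul_slash, Th.Psi0_slash_S, SL_smul_slash,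
      Th.Theta0_slash_T]
  rw [STSTST, slash_neg_one] at h
  obtain ⟨τ, hτ⟩ := Th.Θ_zero_ne
  have h2 := congrFun h τ
  rw [Pi.smul_apply, smul_eq_mul] at h2
  have h3 : -(Th.gs 1) / (p : ℂ) = 1 := by
    have h4 : (-(Th.gs 1) / (p : ℂ) - 1) * Th.Θ 0 τ = 0 := by linear_combination -h2
    rcases mul_eq_zero.mp h4 with h5 | h5
    · linear_combination h5
    · exact absurd h5 hτ
  field_simp at h3
  linear_combination -h3

lemma stdAddChar_pow_val (j a : ZMod p) :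
    (ZMod.stdAddChar j : ℂ) ^ a.val = ZMod.stdAddChar (j * a) := by
  rw [← AddChar.map_nsmul_eq_pow, nsmul_eq_mul, ZMod.natCast_zmod_val, mul_comm]

lemma isPrimitiveRoot_stdAddChar (j : ZMod p) (hj : j ≠ 0) :
    IsPrimitiveRoot (ZMod.stdAddChar j : ℂ) p := by
  have h1 : (ZMod.stdAddChar j : ℂ) ^ p = 1 := by
    rw [← AddChar.map_nsmul_eq_pow, nsmul_eq_mul, ZMod.natCast_self, zero_mul,
      AddChar.map_zero_eq_one]
  have h2 : (ZMod.stdAddChar j : ℂ) ≠ 1 := by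
    rw [← AddChar.map_zero_eq_one (ZMod.stdAddChar (N := p))]
    exact fun h => hj (ZMod.injective_stdAddChar h)
  have h3 := IsPrimitiveRoot.orderOf (ZMod.stdAddChar j : ℂ)
  rwa [orderOf_eq_prime h1 h2] at h3

/-- the polynomial `∑_l X^(t l) + p`, which vanishes at `e(1/p)` by Milgram's formula -/
noncomputable def gpoly : Polynomial ℚ :=
  ∑ l : G, Polynomial.X ^ (Th.t l).val + Polynomial.C (p : ℚ)

lemma aeval_gpoly (j : ZMod p) :
    Polynomial.aeval (ZMod.stdAddChar j : ℂ) Th.gpoly = Th.gs j + p := by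
  simp [gpoly, gs, stdAddChar_pow_val]

/-- all the Gauss sums `∑_l e(j t(l))`, `j ≠ 0`, are `-p` -/
lemma gs_eq (j : ZMod p) (hj : j ≠ 0) : Th.gs j = -(p : ℂ) := by
  have hp : p.Prime := Fact.out
  have hP1 : Polynomial.aeval (ZMod.stdAddChar (1 : ZMod p) : ℂ) Th.gpoly = 0 := by
    rw [Th.aeval_gpoly, Th.gs_one, neg_add_cancel]
  have hdvd := minpoly.dvd ℚ _ hP1
  rw [← Polynomial.cyclotomic_eq_minpoly_rat (isPrimitiveRoot_stdAddChar 1 one_ne_zero) hp.pos,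
    Polynomial.cyclotomic_eq_minpoly_rat (isPrimitiveRoot_stdAddChar j hj) hp.pos] at hdvd
  have hPj := Polynomial.aeval_eq_zero_of_dvd_aeval_eq_zero hdvd (minpoly.aeval ℚ _)
  rw [Th.aeval_gpoly] at hPj
  linear_combination hPj

lemma Psi_slash_S' (j : ZMod p) (hj : j ≠ 0) :
    Th.Psi j ∣[(2 : ℤ)] S = Th.Psi (-j⁻¹) := by
  have hp : (p : ℂ) ≠ 0 := Nat.cast_ne_zero.mpr (Fact.out : p.Prime).ne_zero
  rw [Th.Psi_slash_S j hj, Th.gs_eq j hj, neg_neg, div_self hp, one_smul]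

/-! ### Induction on words in `S`, `T` -/

lemma mul_T_10 (γ : SL(2, ℤ)) : (γ * T) 1 0 = γ 1 0 := by
  simp [Matrix.SpecialLinearGroup.coe_mul, ModularGroup.coe_T, Matrix.mul_apply, Fin.sum_univ_two]

lemma mul_T_11 (γ : SL(2, ℤ)) : (γ * T) 1 1 = γ 1 0 + γ 1 1 := by
  simp [Matrix.SpecialLinearGroup.coe_mul, ModularGroup.coe_T, Matrix.mul_apply, Fin.sum_univ_two]

lemma mul_T_inv_10 (γ : SL(2, ℤ)) : (γ * T⁻¹) 1 0 = γ 1 0 := by
  simp [Matrix.SpecialLinearGroup.coe_mul, Matrix.mul_apply, Fin.sum_univ_two]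

lemma mul_T_inv_11 (γ : SL(2, ℤ)) : (γ * T⁻¹) 1 1 = γ 1 1 - γ 1 0 := by
  simp [Matrix.SpecialLinearGroup.coe_mul, Matrix.mul_apply, Fin.sum_univ_two]
  ring

lemma mul_S_10 (γ : SL(2, ℤ)) : (γ * S) 1 0 = γ 1 1 := by
  simp [Matrix.SpecialLinearGroup.coe_mul, ModularGroup.coe_S, Matrix.mul_apply, Fin.sum_univ_two]

lemma mul_S_11 (γ : SL(2, ℤ)) : (γ * S) 1 1 = -γ 1 0 := by
  simp [Matrix.SpecialLinearGroup.coe_mul, ModularGroup.coe_S, Matrix.mul_apply, Fin.sum_univ_two]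

lemma det_rel (γ : SL(2, ℤ)) :
    ((γ 0 0 : ℤ) : ZMod p) * ((γ 1 1 : ℤ) : ZMod p)
      - ((γ 0 1 : ℤ) : ZMod p) * ((γ 1 0 : ℤ) : ZMod p) = 1 := by
  have h := γ.det_coe
  rw [Matrix.det_fin_two] at h
  have h2 := congrArg (Int.cast : ℤ → ZMod p) h
  push_cast at h2
  exact h2

/-- the orbit statement: `Θ₀ ∣ γ` only depends on the bottom row of `γ` modulo `p` -/
def Orb (γ : SL(2, ℤ)) : Prop :=
  (((γ 1 0 : ℤ) : ZMod p) = 0 → Th.Θ 0 ∣[(2 : ℤ)] γ = Th.Θ 0) ∧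
  (((γ 1 0 : ℤ) : ZMod p) ≠ 0 →
    Th.Θ 0 ∣[(2 : ℤ)] γ = Th.Psi (((γ 1 1 : ℤ) : ZMod p) / ((γ 1 0 : ℤ) : ZMod p)))

lemma orb_one : Th.Orb 1 := by
  refine ⟨fun _ => SlashAction.slash_one _ _, fun h => absurd ?_ h⟩
  simp

lemma orb_mul_T {γ : SL(2, ℤ)} (h : Th.Orb γ) : Th.Orb (γ * T) := by
  rw [Orb, mul_T_10, mul_T_11, SlashAction.slash_mul]
  refine ⟨fun hc => ?_, fun hc => ?_⟩
  · rw [h.1 hc, Th.Theta0_slash_T]
  · rw [h.2 hc, Th.Psi_slash_T]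
    congr 1
    push_cast
    field_simp
    ring

lemma orb_mul_T_inv {γ : SL(2, ℤ)} (h : Th.Orb γ) : Th.Orb (γ * T⁻¹) := by
  rw [Orb, mul_T_inv_10, mul_T_inv_11, SlashAction.slash_mul]
  refine ⟨fun hc => ?_, fun hc => ?_⟩
  · rw [h.1 hc, Th.Theta0_slash_T_inv]
  · rw [h.2 hc, Th.Psi_slash_T_inv]
    congr 1
    push_cast
    field_simp

lemma orb_mul_S_aux {γ : SL(2, ℤ)} (h : Th.Orb γ) :
    (((γ 1 1 : ℤ) : ZMod p) = 0 → (Th.Θ 0 ∣[(2 : ℤ)] γ) ∣[(2 : ℤ)] S = Th.Θ 0) ∧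
    (((γ 1 1 : ℤ) : ZMod p) ≠ 0 → (Th.Θ 0 ∣[(2 : ℤ)] γ) ∣[(2 : ℤ)] S
      = Th.Psi (-((γ 1 0 : ℤ) : ZMod p) / ((γ 1 1 : ℤ) : ZMod p))) := by
  have hdet := det_rel (p := p) γ
  refine ⟨fun hd => ?_, fun hd => ?_⟩
  · have hc : ((γ 1 0 : ℤ) : ZMod p) ≠ 0 := by
      intro hc
      rw [hc, hd, mul_zero, mul_zero, sub_zero] at hdet
      exact zero_ne_one hdet
    rw [h.2 hc, hd, zero_div, Th.Psi0_slash_S]
  · by_cases hc : ((γ 1 0 : ℤ) : ZMod p) = 0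
    · rw [h.1 hc, hc, neg_zero, zero_div, Th.Theta0_slash_S]
    · rw [h.2 hc, Th.Psi_slash_S' _ (div_ne_zero hd hc)]
      congr 1
      field_simp

lemma orb_mul_S {γ : SL(2, ℤ)} (h : Th.Orb γ) : Th.Orb (γ * S) := by
  rw [Orb, mul_S_10, mul_S_11, SlashAction.slash_mul, Int.cast_neg]
  exact Th.orb_mul_S_aux h

lemma orb_mul_S_inv {γ : SL(2, ℤ)} (h : Th.Orb γ) : Th.Orb (γ * S⁻¹) := by
  have h1 : (γ * S⁻¹) 1 0 = -γ 1 1 := by
    simp [Matrix.SpecialLinearGroup.coe_mul, Matrix.SpecialLinearGroup.coe_inv,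
      ModularGroup.coe_S, Matrix.adjugate_fin_two, Matrix.mul_apply, Fin.sum_univ_two]
  have h2 : (γ * S⁻¹) 1 1 = γ 1 0 := by
    simp [Matrix.SpecialLinearGroup.coe_mul, Matrix.SpecialLinearGroup.coe_inv,
      ModularGroup.coe_S, Matrix.adjugate_fin_two, Matrix.mul_apply, Fin.sum_univ_two]
  obtain ⟨ha, hb⟩ := Th.orb_mul_S_aux h
  rw [Orb, h1, h2, SlashAction.slash_mul, slash_S_inv, Int.cast_neg]
  refine ⟨fun hd => ha (neg_eq_zero.mp hd), fun hd => ?_⟩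
  rw [hb (fun h0 => hd (neg_eq_zero.mpr h0)), div_neg, neg_div]

theorem orb (γ : SL(2, ℤ)) : Th.Orb γ := by
  have hγ : γ ∈ Subgroup.closure ({S, T} : Set SL(2, ℤ)) := by
    rw [SpecialLinearGroup.SL2Z_generators]
    exact Subgroup.mem_top γ
  induction hγ using Subgroup.closure_induction_right with
  | one => exact Th.orb_one
  | mul_right x hx y hy ih =>
    rcases hy with rfl | rfl
    · exact Th.orb_mul_S ih
    · exact Th.orb_mul_T ih
  | mul_inv_cancel x hx y hy ih =>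
    rcases hy with rfl | rfl
    · exact Th.orb_mul_S_inv ih
    · exact Th.orb_mul_T_inv ih

/-! ### The modular form -/

/-- `Θ₀` is invariant under `Γ₀(p)` in weight `2`. -/
theorem slash_eq {γ : SL(2, ℤ)} (hγ : γ ∈ Gamma0 p) : Th.Θ 0 ∣[(2 : ℤ)] γ = Th.Θ 0 :=
  (Th.orb γ).1 (Gamma0_mem.mp hγ)

lemma isBoundedAtImInfty_Psi (j : ZMod p) : IsBoundedAtImInfty (Th.Psi j) := by
  unfold Psi
  refine Filter.BoundedAtFilter.smul _ ?_
  refine Finset.sum_induction _ (fun f : ℍ → ℂ => IsBoundedAtImInfty f)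
    (fun _ _ ha hb => Filter.BoundedAtFilter.add ha hb) (Filter.const_boundedAtFilter _ 0)
    (fun l _ => Filter.BoundedAtFilter.smul _ (Th.bdd l))

/-- `Θ₀` is bounded at every cusp. -/
theorem isBoundedAtImInfty_slash (γ : SL(2, ℤ)) :
    IsBoundedAtImInfty (Th.Θ 0 ∣[(2 : ℤ)] γ) := by
  by_cases hc : ((γ 1 0 : ℤ) : ZMod p) = 0
  · rw [(Th.orb γ).1 hc]
    exact Th.bdd 0
  · rw [(Th.orb γ).2 hc]
    exact Th.isBoundedAtImInfty_Psi _

/-- The theta series `Θ₀` of a theta system of prime level `p` as a modular form of weight `2`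
on `Γ₀(p)`. -/
noncomputable def modularForm :
    ModularForm ((Gamma0 p : Subgroup SL(2, ℤ)) : Subgroup (GL (Fin 2) ℝ)) 2 where
  toFun := Th.Θ 0
  slash_action_eq' := by
    rintro _ ⟨γ, hγ, rfl⟩
    exact Th.slash_eq hγ
  holo' := Th.holo
  bdd_at_cusps' := by
    intro c hc
    rw [Subgroup.IsArithmetic.isCusp_iff_isCusp_SL2Z] at hc
    rw [OnePoint.isBoundedAt_iff_forall_SL2Z hc]
    exact fun γ _ => Th.isBoundedAtImInfty_slash γ

@[simp] lemma coe_modularForm : (⇑Th.modularForm : ℍ → ℂ) = Th.Θ 0 := rfl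

end ThetaSys

end Fermat.Agent.S16.Theta
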